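import Fermat.Agent.S19.Move.Key
import Fermat.Agent.S37.HI.Abs
import Fermat.Agent.GES.Fin

set_option autoImplicit false
set_option linter.unusedSectionVars false

/-!
# S19 / Move / Down : from level `N * r` to level `N` by the norm   (leaf MOVE-K)
-/

noncomputable section

namespace Fermat.Agent.S19.Move

open AlgebraicCurve ModularCurve
open Fermat.Agent.S24 (Kb FN IsFF1)
open Fermat.Agent.DIV (valAt valOpt)

theorem valOpt_restrict {K F F' : Type*} [Field K] [IsAlgClosed K] [Field F] [Field F']
    [Algebra K F] [Algebra K F'] [Algebra F F'] [IsScalarTower K F F'] [Algebra.IsIntegral F F']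
    (h : IsFF1 K F) (h' : IsFF1 K F') (w : Place K F') (f : F) :
    valOpt h' w (algebraMap F F' f) = valOpt h (w.restrict F) f := by
  by_cases hf : f ∈ (w.restrict F).toValuationSubring
  · have hf' : algebraMap F F' f ∈ w.toValuationSubring := hf
    set c := valAt h (w.restrict F) f with hc
    have h1 : valOpt h (w.restrict F) f = some c :=
      (Fermat.Agent.DIV.valOpt_eq_some_iff h _).mpr ⟨hf, rfl⟩
    rw [h1, Fermat.Agent.DIV.valOpt_eq_some_iff]
    refine ⟨hf', ?_⟩
    by_cases hne : f = algebraMap K F c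
    · rw [hne, ← IsScalarTower.algebraMap_apply K F F', Fermat.Agent.DIV.valAt_algebraMap]
    · have h2 := Fermat.Agent.DIV.ord_sub_valAt_pos h (w.restrict F) hf hne
      have h3 : 0 < w.ord (algebraMap F F' f - algebraMap K F' c) := by
        rw [IsScalarTower.algebraMap_apply K F F', ← map_sub, w.ord_restrict]
        have hepos : 0 < Place.ramificationIndex (F := F) w := w.ramificationIndex_pos (F := F)
        positivity
      exact (Fermat.Agent.DIV.valAt_eq_of_ord_pos h' w h3).2
  · have hf' : algebraMap F F' f ∉ w.toValuationSubring := hf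
    unfold Fermat.Agent.DIV.valOpt
    rw [if_neg hf, if_neg hf']

theorem key_down (N r : ℕ) [NeZero N] [NeZero r] (A : ValuationSubring Kb)
    (T : Finset (Option Kb)) (h : KeyStatement (N * r) A T) : KeyBad N A T := by
  classical
  intro P₀ hbad
  let _ := GES.algA N r
  have := isScalarTower_along (heckeAlphaBar Kb N r)
  have := GES.finiteDimensional_algA N r
  have : Algebra.IsIntegral (FN N) (FN (N * r)) := Algebra.IsIntegral.of_finite _ _
  have : HasPrincipalDivisors Kb (FN (N * r)) :=
    RL.hasPrincipalDivisors (S24.isFF1_FN (N * r))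
  have hjv : ∀ w : Place Kb (FN (N * r)), jv (N * r) w = jv N (w.restrict (FN N)) := by
    intro w
    exact valOpt_restrict (S24.isFF1_FN N) (S24.isFF1_FN (N * r)) w (S24.jF N)
  have hfar : ∀ w : Place Kb (FN (N * r)), Far (N * r) A T w ↔ Far N A T (w.restrict (FN N)) := by
    intro w
    unfold Far
    rw [hjv w]
  -- the fibre is non empty
  have hne : (P₀.fiber (FN (N * r))).Nonempty := by
    by_contra hemp
    rw [Finset.not_nonempty_iff_eq_empty] at hemp
    have h1 := S37.HI.sum_ramificationIndex (F' := FN (N * r)) (S24.isFF1_FN N) P₀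
    rw [hemp, Finset.sum_empty] at h1
    have h2 : 0 < Module.finrank (FN N) (FN (N * r)) := Module.finrank_pos
    omega
  obtain ⟨P₀', hP₀'⟩ := hne
  have hres : P₀'.restrict (FN N) = P₀ := Place.mem_fiber.mp hP₀'
  obtain ⟨u', hu'0, hu'1, hu'⟩ := h P₀'
  refine ⟨Algebra.norm (FN N) u', ?_, ?_, ?_⟩
  · have : Module.Free (FN N) (FN (N * r)) := Module.Free.of_divisionRing _ _
    exact Algebra.norm_ne_zero_iff.mpr hu'0
  · rw [S37.HI.ord_norm (S24.isFF1_FN N) P₀ hu'0, Finset.sum_eq_single P₀', hu'1]
    · intro w hw hne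
      by_contra hw0
      apply hbad
      rw [← Place.mem_fiber.mp hw, ← hfar]
      exact hu' w hne hw0
    · intro hcon
      exact absurd hP₀' hcon
  · intro P hP hPu
    rw [S37.HI.ord_norm (S24.isFF1_FN N) P hu'0] at hPu
    obtain ⟨w, hw, hw0⟩ := Finset.exists_ne_zero_of_sum_ne_zero hPu
    have hwP : w.restrict (FN N) = P := Place.mem_fiber.mp hw
    rw [← hwP, ← hfar]
    apply hu' w _ hw0
    rintro rfl
    exact hP (hwP.symm.trans hres)

end Fermat.Agent.S19.Move
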