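import Fermat.Agent.S19.Move.Key
import Fermat.Agent.RL.Basic

set_option autoImplicit false
set_option linter.unusedSectionVars false

/-!
# S19 / Move / Ind : removing the bad places one after the other   (leaf MOVE-L)

SKETCH.  `x = Pic0.mk D₀` (`Pic0.mk_surjective`).  Induction on the number of bad places in the support (`Finset.card (D.support.filter (¬ Far))`, classical), for all `D : degZero`:
 if `P₀` is a bad place of the support, `u` from `h P₀`, `E := div u` (`RL.hasPrincipalDivisors (hFF N)`: `HasPrincipalDivisors.exists_divisor u hu` gives `E` with `E v = v.ord u`, `degree E = 0`),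
 `D' := D - D P₀ • E` has the same class (`QuotientAddGroup.eq` / `Pic0.mk` of a principal divisor is `0`; `Divisor.principal` is a subgroup so `D P₀ • E` is principal),
 `D' P₀ = 0`, and for a bad `P ≠ P₀`: `E P = 0`, so `D' P = D P`: the set of bad places of the support has lost `P₀`.
-/

noncomputable section

namespace Fermat.Agent.S19.Move

open AlgebraicCurve ModularCurve
open Fermat.Agent.S24 (Kb FN IsFF1)

open Classical in
theorem exists_far_rep (N : ℕ) [NeZero N] (A : ValuationSubring Kb) (T : Finset (Option Kb))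
    (h1 : ∀ P0 : Place Kb (FN N), ¬ Far N A T P0 →
      ∃ u : FN N, u ≠ 0 ∧ P0.ord u = 1 ∧ ∀ P, P ≠ P0 → P.ord u ≠ 0 → Far N A T P) :
    ∀ (n : ℕ) (D : Divisor.degZero (K := Kb) (F := FN N)),
      ((D : Divisor Kb (FN N)).support.filter fun P => ¬ Far N A T P).card = n →
      ∃ D' : Divisor.degZero (K := Kb) (F := FN N), Pic0.mk D' = Pic0.mk D ∧
        ∀ P, (D' : Divisor Kb (FN N)) P ≠ 0 → Far N A T P := by
  intro n
  induction n using Nat.strong_induction_on with
  | _ n ih =>
    intro D hn
    by_cases hbad : ∃ P0, (D : Divisor Kb (FN N)) P0 ≠ 0 ∧ ¬ Far N A T P0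
    · obtain ⟨P0, hP0, hfar⟩ := hbad
      obtain ⟨u, hu, hord, hoth⟩ := h1 P0 hfar
      obtain ⟨E, hE, hdeg⟩ := Fermat.Agent.RL.exists_div (hFF N) hu
      have hEp : E ∈ Divisor.principal (K := Kb) (F := FN N) := ⟨u, hu, hE⟩
      set c : ℤ := (D : Divisor Kb (FN N)) P0 with hc
      have hmem : (D : Divisor Kb (FN N)) - c • E ∈ Divisor.degZero (K := Kb) (F := FN N) :=
        sub_mem D.2 (zsmul_mem (Divisor.mem_degZero.2 hdeg) c)
      let D1 : Divisor.degZero (K := Kb) (F := FN N) := ⟨(D : Divisor Kb (FN N)) - c • E, hmem⟩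
      have hmk : Pic0.mk D1 = Pic0.mk D := by
        refine (QuotientAddGroup.eq).2 ?_
        rw [AddSubgroup.mem_addSubgroupOf]
        have : ((-D1 + D : Divisor.degZero (K := Kb) (F := FN N)) : Divisor Kb (FN N)) = c • E := by
          simp [D1]
        rw [this]
        exact zsmul_mem hEp c
      have hval : ∀ P, (D1 : Divisor Kb (FN N)) P = (D : Divisor Kb (FN N)) P - c * P.ord u := by
        intro P
        show ((D : Divisor Kb (FN N)) - c • E) P = _
        rw [Finsupp.sub_apply, Finsupp.smul_apply, hE, smul_eq_mul]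
      have hsub : ((D1 : Divisor Kb (FN N)).support.filter fun P => ¬ Far N A T P) ⊂
          ((D : Divisor Kb (FN N)).support.filter fun P => ¬ Far N A T P) := by
        rw [Finset.ssubset_iff_of_subset]
        · refine ⟨P0, ?_, ?_⟩
          · rw [Finset.mem_filter, Finsupp.mem_support_iff]
            exact ⟨hP0, hfar⟩
          · rw [Finset.mem_filter, Finsupp.mem_support_iff, hval, hord]
            intro h
            exact h.1 (by rw [mul_one, hc, sub_self])
        · intro P hP
          rw [Finset.mem_filter, Finsupp.mem_support_iff] at hP ⊢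
          refine ⟨?_, hP.2⟩
          by_cases hPP : P = P0
          · rw [hPP]; exact hP0
          · have h0 : P.ord u = 0 := by
              by_contra h0
              exact hP.2 (hoth P hPP h0)
            have := hP.1
            rwa [hval, h0, mul_zero, sub_zero] at this
      obtain ⟨D', hD', hfar'⟩ := ih _ (hn ▸ Finset.card_lt_card hsub) D1 rfl
      exact ⟨D', hD'.trans hmk, hfar'⟩
    · refine ⟨D, rfl, fun P hP => ?_⟩
      by_contra hf
      exact hbad ⟨P, hP, hf⟩

theorem l3_of_keyBad (N : ℕ) [NeZero N] (A : ValuationSubring Kb) (T : Finset (Option Kb))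
    (h : KeyBad N A T) (x : JZero N) :
    ∃ D : Divisor.degZero (K := Kb) (F := FN N), Pic0.mk D = x ∧
      ∀ P, (D : Divisor Kb (FN N)) P ≠ 0 → ∀ τ ∈ T, ¬ Close A (jv N P) τ := by
  obtain ⟨D, rfl⟩ := Pic0.mk_surjective x
  obtain ⟨D', hD', hfar⟩ := exists_far_rep N A T h _ D rfl
  exact ⟨D', hD', hfar⟩

end Fermat.Agent.S19.Move
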