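import Fermat.Agent.S19.Move.LevelM
import Fermat.Agent.S19.Move.Down
import Fermat.Agent.S19.Move.Ind

set_option autoImplicit false

/-!
# S19 / Move / Main : `L3Statement`
-/

noncomputable section

namespace Fermat.Agent.S19.Move

open AlgebraicCurve ModularCurve
open Fermat.Agent.S24 (Kb FN IsFF1)
open Fermat.Agent.S18 (lineOf)

theorem lineOf_r_pos (ℓ : ℕ) : (lineOf ℓ).r ≠ 0 := by
  unfold lineOf
  split_ifs <;> simp [Fermat.Agent.S18.line2, Fermat.Agent.S18.line3]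

theorem not_dvd_lineOf_r {ℓ : ℕ} (hℓ : ℓ.Prime) : ¬ ℓ ∣ (lineOf ℓ).r := by
  unfold lineOf
  split_ifs with h
  · subst h
    simp [Fermat.Agent.S18.line2]
  · simp only [Fermat.Agent.S18.line3]
    intro hd
    exact h ((Nat.prime_dvd_prime_iff_eq hℓ Nat.prime_three).1 hd)

/-- **MOVE**. -/
theorem l3 (N ℓ : ℕ) [NeZero N] (hℓ : ℓ.Prime) (hℓN : ¬ ℓ ∣ N) : L3Statement N ℓ := by
  intro A hA T x
  haveI : NeZero (lineOf ℓ).r := ⟨lineOf_r_pos ℓ⟩
  have hM : ¬ ℓ ∣ N * (lineOf ℓ).r := fun h =>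
    (hℓ.dvd_mul.1 h).elim hℓN (not_dvd_lineOf_r hℓ)
  exact l3_of_keyBad N A T
    (key_down N (lineOf ℓ).r A T (keyM (N * (lineOf ℓ).r) ℓ hℓ hM (dvd_mul_left _ _) A hA T)) x

end Fermat.Agent.S19.Move
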