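import Fermat.Agent.S19.Move.Setup

set_option autoImplicit false
set_option linter.unusedSectionVars false

/-!
# S19 / Move / Gen : a local generator of the section which avoids finitely many other closed points   (leaf MOVE-C)

SKETCH.  `h` := `lf_sm`.  `h ≠ 0` (otherwise `𝔭 = 0`; but `t - r ∈ 𝔭` for some `r` (`h𝔭.rat`), and `t ≠ rE r` because `t` is transcendental).
 `J := {z | ∃ d ∉ n, ∃ ν ∈ n, d * z = h * ν}` is an ideal of `C` (`n` prime).  `h ∉ J` (`d h = h ν ⟹ d = ν ∈ n`).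
 For `n' ∈ S`: `¬ 𝔭 ≤ n'`.  Indeed if `𝔭 ≤ n'` then `n ≤ n'` (`c ∈ n`, `c - r ∈ 𝔭`, `ϖ ∣ r` by `S34.lf_ev_dvd`, `unifC t ϖ ∈ n'`), so `n = n'` (`hn.max.eq_of_le`), contradiction with `n ∉ S`.
 Prime avoidance `Ideal.subset_union_prime` (index type `Option (Ideal C)` or `insert J S`; ONE non-prime ideal `J` is allowed: the parameters `a b`): there is `g ∈ 𝔭`, `g ∉ J`, `g ∉ n'` for `n' ∈ S`.
 Let `p ∈ 𝔭`, `ν ∈ n`.  `p ν ∈ J` (`d p = h b ⟹ d (p ν) = h (b ν)`), so `g' := g + p ν ∈ 𝔭 \ J`.  `d g' = h b` with `d ∉ n`; `b ∉ n` since `g' ∉ J`.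
 For `z ∈ 𝔭`: `e z = h c`, `e ∉ n`; then `(b e) z = h b c = g' (d c)` and `b e ∉ n`.
-/

noncomputable section

namespace Fermat.Agent.S19.Move

open Polynomial IntermediateField Fermat.Agent.S18 Fermat.Agent.S34

variable {R K F : Type} [CommRing R] [IsDomain R] [IsDiscreteValuationRing R] [Field K] [CharZero K]
  [Algebra R K] [IsFractionRing R K] [Field F] [Algebra K F] {ϖ : R}

/-- the abstract prime avoidance argument. -/
theorem gen_abstract {C : Type} [CommRing C] [IsDomain C] {n 𝔭 : Ideal C} (hn : n.IsPrime)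
    {h : C} (hh : h ∈ 𝔭) (h0 : h ≠ 0)
    (hgen : ∀ z ∈ 𝔭, ∃ d : C, d ∉ n ∧ ∃ b : C, d * z = h * b) (S : Finset (Ideal C))
    (hS1 : ∀ n' ∈ S, n'.IsPrime) (hS2 : ∀ n' ∈ S, ¬ 𝔭 ≤ n') :
    ∃ g ∈ 𝔭, (∀ n' ∈ S, g ∉ n') ∧ ∀ p ∈ 𝔭, ∀ ν ∈ n, ∀ z ∈ 𝔭,
      ∃ d : C, d ∉ n ∧ ∃ b : C, d * z = (g + p * ν) * b := by
  classical
  let J : Ideal C :=
    { carrier := {z | ∃ d : C, d ∉ n ∧ ∃ ν ∈ n, d * z = h * ν}
      zero_mem' := ⟨1, fun h1 => hn.ne_top ((Ideal.eq_top_iff_one n).2 h1), 0, n.zero_mem, by simp⟩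
      add_mem' := by
        rintro z z' ⟨d, hd, ν, hν, e⟩ ⟨d', hd', ν', hν', e'⟩
        refine ⟨d * d', fun hm => (hn.mem_or_mem hm).elim hd hd', d' * ν + d * ν',
          n.add_mem (n.mul_mem_left _ hν) (n.mul_mem_left _ hν'), ?_⟩
        linear_combination d' * e + d * e'
      smul_mem' := by
        rintro c z ⟨d, hd, ν, hν, e⟩
        refine ⟨d, hd, c * ν, n.mul_mem_left _ hν, ?_⟩
        rw [smul_eq_mul]
        linear_combination c * e }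
  have hJ : ∀ z, z ∈ J ↔ ∃ d : C, d ∉ n ∧ ∃ ν ∈ n, d * z = h * ν := fun _ => Iff.rfl
  have hhJ : h ∉ J := by
    rintro ⟨d, hd, ν, hν, e⟩
    apply hd
    have : d = ν := mul_left_cancel₀ h0 (by rw [← e, mul_comm])
    rw [this]
    exact hν
  have hav : ¬ ((𝔭 : Set C) ⊆ ⋃ i ∈ ((insert J S : Finset (Ideal C)) : Set (Ideal C)),
      ((id i : Ideal C) : Set C)) := by
    intro hsub
    obtain ⟨i, hi, hle⟩ := (Ideal.subset_union_prime (f := id) J J (fun i hi h1 _ =>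
      hS1 i ((Finset.mem_insert.1 hi).resolve_left h1))).1 hsub
    rcases Finset.mem_insert.1 hi with rfl | hi
    · exact hhJ (hle hh)
    · exact hS2 i hi hle
  obtain ⟨g, hg, hgn⟩ := Set.not_subset.1 hav
  simp only [Set.mem_iUnion, not_exists] at hgn
  have hgJ : g ∉ J := fun hm => hgn J (Finset.mem_coe.2 (Finset.mem_insert_self J S)) hm
  refine ⟨g, hg, fun n' hn' hm =>
    hgn n' (Finset.mem_coe.2 (Finset.mem_insert_of_mem hn')) hm, ?_⟩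
  intro p hp ν hν z hz
  have hpν : p * ν ∈ J := by
    obtain ⟨d, hd, b, e⟩ := hgen p hp
    exact ⟨d, hd, b * ν, n.mul_mem_left _ hν, by linear_combination ν * e⟩
  have hg'J : g + p * ν ∉ J := fun hm => hgJ (by
    have := J.sub_mem hm hpν
    simpa using this)
  have hg'𝔭 : g + p * ν ∈ 𝔭 := 𝔭.add_mem hg (𝔭.mul_mem_right _ hp)
  obtain ⟨d, hd, b, e⟩ := hgen _ hg'𝔭
  have hb : b ∉ n := fun hm => hg'J ⟨d, hd, b, hm, e⟩
  obtain ⟨e', he', c, ec⟩ := hgen z hz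
  refine ⟨b * e', fun hm => (hn.mem_or_mem hm).elim hb he', d * c, ?_⟩
  linear_combination b * ec - c * e

theorem exists_gen (hϖ : Irreducible ϖ) {t : F} (ht : Transcendental K t)
    (hfin : FiniteDimensional K⟮t⟯ F) {n 𝔭 : Ideal (CInt R K t)} (hn : IsClosedPt ϖ n)
    (hS : SmAt ϖ n) (h𝔭 : IsSection n 𝔭) (S : Finset (Ideal (CInt R K t)))
    (hS1 : ∀ n' ∈ S, n'.IsPrime) (hS2 : ∀ n' ∈ S, unifC t ϖ ∈ n') (hS3 : n ∉ S) :
    ∃ g ∈ 𝔭, (∀ n' ∈ S, g ∉ n') ∧ ∀ p ∈ 𝔭, ∀ ν ∈ n, ∀ z ∈ 𝔭,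
      ∃ d : CInt R K t, d ∉ n ∧ ∃ b : CInt R K t, d * z = (g + p * ν) * b := by
  obtain ⟨h, hh, hgen⟩ := lf_sm hϖ ht hfin hn hS h𝔭
  have h0 : h ≠ 0 := by
    rintro rfl
    obtain ⟨r, hr⟩ := h𝔭.rat ⟨t, self_mem_CInt t⟩
    obtain ⟨d, hd, b, e⟩ := hgen _ hr
    rw [zero_mul] at e
    have hd0 : d ≠ 0 := fun h0 => hd (h0 ▸ n.zero_mem)
    have h1 := (mul_eq_zero.1 e).resolve_left hd0
    have h2 : t = rE R K F r := by
      have := congrArg (fun z : CInt R K t => (z : F)) h1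
      exact sub_eq_zero.1 this
    apply ht
    rw [h2]
    exact isAlgebraic_algebraMap (algebraMap R K r)
  refine gen_abstract hn.max.isPrime hh h0 hgen S hS1 fun n' hn' hle => ?_
  have hnn : n ≤ n' := by
    intro c hc
    obtain ⟨r, hr⟩ := h𝔭.rat c
    obtain ⟨r', rfl⟩ := lf_ev_dvd hϖ hn h𝔭 hc hr
    have h1 : (⟨rE R K F (ϖ * r'), rE_mem_CInt t (ϖ * r')⟩ : CInt R K t) ∈ n' := by
      have e : (⟨rE R K F (ϖ * r'), rE_mem_CInt t (ϖ * r')⟩ : CInt R K t)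
          = ⟨rE R K F r', rE_mem_CInt t r'⟩ * unifC t ϖ := by
        apply Subtype.ext
        show rE R K F (ϖ * r') = rE R K F r' * rE R K F ϖ
        rw [map_mul, mul_comm]
      rw [e]
      exact n'.mul_mem_left _ (hS2 n' hn')
    have := n'.add_mem (hle hr) h1
    simpa using this
  exact hS3 ((hn.max.eq_of_le (hS1 n' hn').ne_top hnn) ▸ hn')

end Fermat.Agent.S19.Move
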