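import Fermat.Agent.S19.Move.Setup

set_option autoImplicit false
set_option linter.unusedSectionVars false

/-!
# S19 / Move / Inf : behaviour at the places with `t(i) ∉ A`   (leaf MOVE-D)

SKETCH.  `s := t⁻¹`.  `S18.fin_to_inf_ge ht0 hg` gives `k₀` with `s ^ k * g ∈ CInt R K s` for `k ≥ k₀`.
 Let `Ψ` with unit leading coefficient, `N := Ψ.natDegree > k₀`, and `i` with `t ∉ W i`.  Then `s ∈ (W i).nonunits` (`ss_mem_nonunits_iff`, `inv_inv`), in particular `s ∈ W i`, so `CInt R K s ⊆ W i` (`hM.C_le`).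
 `(g + Ψ(t)) s^N = s * (s^(N-1) g) + Ψ(t) s^N`.  First term: nonunit.  `Ψ(t) s^N = evR s (reflect N Ψ)` (`S18.evR_mul_inv_pow`), `(reflect N Ψ).coeff 0 = Ψ.leadingCoeff` (`coeff_zero_reflect` / `coeff_reflect`, `revAt`),
 `reflect N Ψ = C u + X * q` (`Polynomial.X_dvd_sub_C` or `divX_mul_X_add`), so `evR s (..) = rE u + s * evR s q`: `rE u` is a unit of `W i` (`u` unit of `R`: `rE u * rE u⁻¹ = 1`, both in `W i`), the rest is a nonunit.
 unit + nonunit is not a nonunit (`ss_notMem_of_sub` or `sub_mem_nonunits`).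
-/

noncomputable section

namespace Fermat.Agent.S19.Move

open Polynomial IntermediateField Fermat.Agent.S18 Fermat.Agent.S34

variable {R K F : Type} [CommRing R] [IsDomain R] [IsDiscreteValuationRing R] [Field K] [CharZero K]
  [Algebra R K] [IsFractionRing R K] [Field F] [Algebra K F] {ϖ : R} {I : Type} {w : I → F → ℤ}
  {W : I → ValuationSubring F}

theorem exists_bound (hM : MoveFam R K ϖ w W) {t g : F} (ht0 : t ≠ 0) (hg : g ∈ CInt R K t) :
    ∃ k₀ : ℕ, ∀ Ψ : R[X], IsUnit Ψ.leadingCoeff → k₀ < Ψ.natDegree → ∀ i : I, t ∉ W i →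
      (g + evR R K t Ψ) * t⁻¹ ^ Ψ.natDegree ∈ W i ∧
        (g + evR R K t Ψ) * t⁻¹ ^ Ψ.natDegree ∉ (W i).nonunits := by
  obtain ⟨k₀, hk⟩ := fin_to_inf_ge (R := R) (K := K) ht0 hg
  refine ⟨k₀, fun Ψ hu hdeg i hti => ?_⟩
  set s : F := t⁻¹ with hs
  set n : ℕ := Ψ.natDegree with hn
  have hsN : s ∈ (W i).nonunits := by
    rw [ss_mem_nonunits_iff]
    right
    rw [hs, inv_inv]
    exact hti
  have hsW : s ∈ W i := ValuationSubring.nonunits_subset hsN
  have hA1 : s ^ (n - 1) * g ∈ W i := hM.C_le hsW _ (hk (n - 1) (by omega))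
  have e1 : g * s ^ n = s * (s ^ (n - 1) * g) := by
    have : s ^ n = s * s ^ (n - 1) := by
      rw [← pow_succ']
      congr 1
      omega
    rw [this]
    ring
  have e2 : evR R K t Ψ * s ^ n = evR R K s (reflect n Ψ) := evR_mul_inv_pow ht0 Ψ le_rfl
  have hc0 : (reflect n Ψ).coeff 0 = Ψ.leadingCoeff := coeff_zero_reverse Ψ
  have e3 : evR R K s (reflect n Ψ) =
      evR R K s (divX (reflect n Ψ)) * s + rE R K F Ψ.leadingCoeff := by
    conv_lhs => rw [← divX_mul_X_add (reflect n Ψ)]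
    rw [map_add, map_mul, evR_X, evR_C, hc0]
  set ρ : F := s * (s ^ (n - 1) * g) + evR R K s (divX (reflect n Ψ)) * s with hρ
  have hρN : ρ ∈ (W i).nonunits :=
    add_mem_nonunits _ (mul_mem_nonunits' _ hsN hA1) (mul_mem_nonunits _ (hM.evR_mem hsW _) hsN)
  have etot : (g + evR R K t Ψ) * s ^ n = rE R K F Ψ.leadingCoeff + ρ := by
    rw [add_mul, e1, e2, e3, hρ]
    ring
  have huW : rE R K F Ψ.leadingCoeff ∈ W i := hM.R_mem i _
  have huN : rE R K F Ψ.leadingCoeff ∉ (W i).nonunits := by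
    intro h
    obtain ⟨v, hv⟩ := hu.exists_right_inv
    have h1 : rE R K F Ψ.leadingCoeff * rE R K F v = 1 := by
      rw [← map_mul, hv, map_one]
    have h2 := mul_mem_nonunits' _ h (hM.R_mem i v)
    rw [h1] at h2
    exact one_notMem_nonunits _ h2
  rw [etot]
  refine ⟨(W i).add_mem _ _ huW (ValuationSubring.nonunits_subset hρN), ?_⟩
  refine ss_notMem_of_sub _ huN ?_
  have : rE R K F Ψ.leadingCoeff - (rE R K F Ψ.leadingCoeff + ρ) = -ρ := by ring
  rw [this]
  exact neg_mem_nonunits _ hρN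

end Fermat.Agent.S19.Move
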