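import Fermat.Agent.S19.Move.Fin
import Fermat.Agent.S19.Move.Gen
import Fermat.Agent.S19.Move.Inf

set_option autoImplicit false
set_option linter.unusedSectionVars false

/-!
# S19 / Move / Abs : the abstract moving lemma   (leaf MOVE-E)

`u = H₁ / H₂`, `H₁ = g + Ψ(t)`, `H₂ = 1 + Ψ(t)`, `Ψ = X^k Θ (X - r₀)^2`, `r₀ = t(i₀) ∈ R`, `g` from `exists_gen` for
`S = {primes ∋ ϖ, (Θ (X - r₀))(t)} \ {n}`.
-/

noncomputable section

namespace Fermat.Agent.S19.Move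

open Polynomial IntermediateField Fermat.Agent.S18 Fermat.Agent.S34

variable {R K F : Type} [CommRing R] [IsDomain R] [IsDiscreteValuationRing R] [Field K] [CharZero K]
  [Algebra R K] [IsFractionRing R K] [Field F] [Algebra K F] {ϖ : R} {I : Type} {w : I → F → ℤ}
  {W : I → ValuationSubring F}

theorem move_abs (hϖ : Irreducible ϖ) {t : F} {V : ValuationSubring F} (h1 : Chart1 K ϖ t V)
    (hM : MoveFam R K ϖ w W) (i₀ : I) (ht : t ∈ W i₀) (hrat : RatAt K w i₀)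
    (hunif : ∃ z ∈ CInt R K t, z ≠ 0 ∧ w i₀ z = 1)
    (hsep : ∀ i, i ≠ i₀ → t ∈ W i → ∃ z ∈ CInt R K t, z ≠ 0 ∧ 0 < w i₀ z ∧ w i z = 0)
    (Θ : R[X]) (hΘ : IsUnit Θ.leadingCoeff) :
    ∃ u : F, u ≠ 0 ∧ w i₀ u = 1 ∧ ∀ i, i ≠ i₀ → w i u ≠ 0 →
      t ∈ W i ∧ evR R K t Θ ∉ (W i).nonunits := by
  classical
  have htr : Transcendental K t := h1.trans
  have ht0 : t ≠ 0 := by
    rintro rfl
    exact htr (isAlgebraic_zero)
  set n : Ideal (CInt R K t) := cen (W i₀) (hM.C_le ht) with hn_def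
  set 𝔭 : Ideal (CInt R K t) := cen (hM.fam.valO i₀) (hM.C_leO ht) with hp_def
  have hsec : IsSection n 𝔭 := hM.isSection ht hrat
  have hcl : IsClosedPt ϖ n := hM.isClosedPt hϖ ht hrat
  have hsm : SmAt ϖ n := smAt_of_chart1 hϖ h1 hcl
  have hnprime : n.IsPrime := hcl.max.isPrime
  obtain ⟨r₀, hr₀⟩ := hsec.rat ⟨t, self_mem_CInt t⟩
  set pC : CInt R K t := ⟨t, self_mem_CInt t⟩ - ⟨rE R K F r₀, rE_mem_CInt t r₀⟩ with hpC
  have hΘ0 : Θ ≠ 0 := by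
    rintro rfl
    simp at hΘ
  -- the bad closed points
  set Φ : R[X] := Θ * (X - C r₀) with hΦdef
  have hΦlc : IsUnit Φ.leadingCoeff := by
    rw [hΦdef, leadingCoeff_mul, leadingCoeff_X_sub_C, mul_one]
    exact hΘ
  have hΦ : ¬ C ϖ ∣ Φ := by
    intro hdvd
    have h2 : ϖ ∣ Φ.leadingCoeff := (C_dvd_iff_dvd_coeff _ _).1 hdvd _
    exact hϖ.not_isUnit (isUnit_of_dvd_unit h2 hΦlc)
  have hfin := finite_primes hϖ h1 hΦ
  set S : Finset (Ideal (CInt R K t)) := hfin.toFinset.erase n with hS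
  have hSmem : ∀ n', n' ∈ S ↔ n' ≠ n ∧ n'.IsPrime ∧ unifC t ϖ ∈ n' ∧ evC t Φ ∈ n' := by
    intro n'
    rw [hS, Finset.mem_erase, Set.Finite.mem_toFinset]
    rfl
  obtain ⟨g, hg𝔭, hgS, hgen⟩ := exists_gen hϖ htr h1.fin hcl hsm hsec S
    (fun n' h => ((hSmem n').1 h).2.1) (fun n' h => ((hSmem n').1 h).2.2.1)
    (fun h => ((hSmem n).1 h).1 rfl)
  obtain ⟨k₀, hk₀⟩ := exists_bound hM ht0 g.2
  obtain ⟨k₁, hk₁⟩ := exists_bound hM ht0 (CInt R K t).one_mem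
  set k : ℕ := k₀ + k₁ + 1 with hk
  set Q : R[X] := Θ * (X - C r₀) ^ 2 with hQ
  have hQ0 : Q ≠ 0 := mul_ne_zero hΘ0 (pow_ne_zero _ (X_sub_C_ne_zero r₀))
  set Ψ : R[X] := X ^ k * Q with hΨ
  have hΨlc : IsUnit Ψ.leadingCoeff := by
    rw [hΨ, hQ, leadingCoeff_mul, leadingCoeff_mul, leadingCoeff_pow, leadingCoeff_pow,
      leadingCoeff_X_sub_C, leadingCoeff_X, one_pow, one_pow, mul_one, one_mul]
    exact hΘ
  have hΨdeg : Ψ.natDegree = Q.natDegree + k := natDegree_X_pow_mul k hQ0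
  set νC : CInt R K t := pC * evC t (X ^ k * Θ) with hνC
  have hν𝔭 : νC ∈ 𝔭 := 𝔭.mul_mem_right _ hr₀
  have hνn : νC ∈ n := hsec.le hν𝔭
  have hpν : ((pC * νC : CInt R K t) : F) = evR R K t Ψ := by
    have e1 : evR R K t (X - C r₀) = t - rE R K F r₀ := by
      rw [_root_.map_sub, evR_X, evR_C]
    rw [hΨ, hQ, _root_.map_mul, _root_.map_mul, _root_.map_pow (evR R K t) (X - C r₀), e1]
    show (t - rE R K F r₀) * ((t - rE R K F r₀) * evR R K t (X ^ k * Θ)) = _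
    rw [_root_.map_mul]
    ring
  set H₁ : CInt R K t := g + pC * νC with hH₁
  set H₂ : CInt R K t := 1 + pC * νC with hH₂
  have hH₁F : (H₁ : F) = (g : F) + evR R K t Ψ := by
    rw [← hpν]; rfl
  have hH₂F : (H₂ : F) = 1 + evR R K t Ψ := by
    rw [← hpν]; rfl
  have hgen' : ∀ z ∈ 𝔭, ∃ d : CInt R K t, d ∉ n ∧ ∃ b : CInt R K t, d * z = H₁ * b :=
    fun z hz => hgen pC hr₀ νC hνn z hz
  have hpνn : pC * νC ∈ n := n.mul_mem_left _ hνn
  have hH₂n : H₂ ∉ n := by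
    intro h
    have h2 := n.sub_mem h hpνn
    rw [hH₂, add_sub_cancel_right] at h2
    exact hnprime.ne_top ((Ideal.eq_top_iff_one _).2 h2)
  have hne : ∀ {c : CInt R K t} {J : Ideal (CInt R K t)}, c ∉ J → (c : F) ≠ 0 := by
    intro c J hc h0
    apply hc
    have : c = 0 := Subtype.ext h0
    rw [this]; exact J.zero_mem
  have hH₂0 : (H₂ : F) ≠ 0 := hne hH₂n
  -- general facts on the centres
  have hunit : ∀ (i : I) (hti : t ∈ W i) (c : CInt R K t), c ∉ cen (W i) (hM.C_le hti) →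
      w i (c : F) = 0 := fun i hti c hc => hM.w_eq_zero (hM.C_le hti c c.2) hc
  have hnonneg : ∀ (i : I) (hti : t ∈ W i) (c : CInt R K t), (c : F) ≠ 0 → 0 ≤ w i (c : F) :=
    fun i hti c hc => hM.le i c (hM.C_le hti c c.2) hc
  obtain ⟨z₁, hz₁C, hz₁0, hz₁w⟩ := hunif
  have hz₁𝔭 : (⟨z₁, hz₁C⟩ : CInt R K t) ∈ 𝔭 := by
    rw [hp_def, mem_cen, hM.mem_valO_nonunits]
    right
    show 0 < w i₀ z₁
    omega
  obtain ⟨d₁, hd₁, b₁, hdb₁⟩ := hgen' _ hz₁𝔭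
  have hdb₁F : (d₁ : F) * z₁ = (H₁ : F) * (b₁ : F) := congrArg Subtype.val hdb₁
  have hd₁0 : (d₁ : F) ≠ 0 := hne hd₁
  have hH₁0 : (H₁ : F) ≠ 0 := by
    intro h0
    rw [h0, zero_mul] at hdb₁F
    exact mul_ne_zero hd₁0 hz₁0 hdb₁F
  have hb₁0 : (b₁ : F) ≠ 0 := by
    intro h0
    rw [h0, mul_zero] at hdb₁F
    exact mul_ne_zero hd₁0 hz₁0 hdb₁F
  have hH₁𝔭 : H₁ ∈ 𝔭 := 𝔭.add_mem hg𝔭 (𝔭.mul_mem_right _ hr₀)
  refine ⟨(H₁ : F) / (H₂ : F), div_ne_zero hH₁0 hH₂0, ?_, ?_⟩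
  · rw [hM.fam.map_div i₀ hH₁0 hH₂0, hunit i₀ ht H₂ hH₂n, sub_zero]
    have h1' : 0 < w i₀ (H₁ : F) := by
      have := hM.mem_valO_nonunits.1 (mem_cen.1 hH₁𝔭)
      exact this.resolve_left hH₁0
    have h2 := congrArg (w i₀) hdb₁F
    rw [hM.fam.map_mul i₀ _ _ hd₁0 hz₁0, hM.fam.map_mul i₀ _ _ hH₁0 hb₁0, hunit i₀ ht d₁ hd₁,
      hz₁w] at h2
    have h3 := hnonneg i₀ ht b₁ hb₁0
    omega
  · intro i hi hwu
    rw [hM.fam.map_div i hH₁0 hH₂0] at hwu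
    have hti : t ∈ W i := by
      by_contra hti
      obtain ⟨ha1, ha2⟩ := hk₀ Ψ hΨlc (by rw [hΨdeg]; omega) i hti
      obtain ⟨hb1, hb2⟩ := hk₁ Ψ hΨlc (by rw [hΨdeg]; omega) i hti
      rw [← hH₁F] at ha1 ha2
      rw [← hH₂F] at hb1 hb2
      have e1 := hM.w_eq_zero ha1 ha2
      have e2 := hM.w_eq_zero hb1 hb2
      have hs0 : t⁻¹ ^ Ψ.natDegree ≠ 0 := pow_ne_zero _ (inv_ne_zero ht0)
      rw [hM.fam.map_mul i _ _ hH₁0 hs0] at e1
      rw [hM.fam.map_mul i _ _ hH₂0 hs0] at e2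
      omega
    refine ⟨hti, fun hΘi => ?_⟩
    apply hwu
    set n' : Ideal (CInt R K t) := cen (W i) (hM.C_le hti) with hn'
    have hn'prime : n'.IsPrime := cen_isPrime (W i) (hM.C_le hti)
    have hevW : ∀ q : R[X], evR R K t q ∈ W i := hM.evR_mem hti
    have hΦn' : evC t Φ ∈ n' := by
      rw [hn', mem_cen, coe_evC, hΦdef, _root_.map_mul]
      exact mul_mem_nonunits' (W i) hΘi (hevW _)
    have hΨn' : evR R K t Ψ ∈ (W i).nonunits := by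
      rw [hΨ, hQ, _root_.map_mul, _root_.map_mul]
      exact mul_mem_nonunits (W i) (hevW _) (mul_mem_nonunits' (W i) hΘi (hevW _))
    have hH₂n' : H₂ ∉ n' := by
      intro h
      rw [hn', mem_cen, hH₂F] at h
      have h2 := sub_mem_nonunits (W i) h hΨn'
      rw [add_sub_cancel_right] at h2
      exact one_notMem_nonunits (W i) h2
    rw [hunit i hti H₂ hH₂n', sub_zero]
    by_cases hnn : n' = n
    · obtain ⟨z, hzC, hz0, hzw₀, hzw⟩ := hsep i hi hti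
      have hz𝔭 : (⟨z, hzC⟩ : CInt R K t) ∈ 𝔭 := by
        rw [hp_def, mem_cen, hM.mem_valO_nonunits]
        exact Or.inr hzw₀
      obtain ⟨d, hd, b, hdb⟩ := hgen' _ hz𝔭
      have hdbF : (d : F) * z = (H₁ : F) * (b : F) := congrArg Subtype.val hdb
      have hd0 : (d : F) ≠ 0 := hne hd
      have hb0 : (b : F) ≠ 0 := by
        intro h0
        rw [h0, mul_zero] at hdbF
        exact mul_ne_zero hd0 hz0 hdbF
      have h2 := congrArg (w i) hdbF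
      rw [hM.fam.map_mul i _ _ hd0 hz0, hM.fam.map_mul i _ _ hH₁0 hb0,
        hunit i hti d (by rw [← hn', hnn]; exact hd), hzw] at h2
      have h3 := hnonneg i hti b hb0
      have h4 := hnonneg i hti H₁ hH₁0
      omega
    · have hn'S : n' ∈ S := (hSmem n').2 ⟨hnn, hn'prime, by
        rw [hn', mem_cen]; exact hM.unif i, hΦn'⟩
      have hgn' := hgS n' hn'S
      apply hunit i hti H₁
      intro h
      apply hgn'
      rw [← hn', hn', mem_cen, hH₁F] at h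
      have h2 := sub_mem_nonunits (W i) h hΨn'
      rw [add_sub_cancel_right] at h2
      rw [hn', mem_cen]
      exact h2

end Fermat.Agent.S19.Move
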