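import Fermat.Agent.S19.Move.Mid

set_option autoImplicit false
set_option linter.unusedSectionVars false

/-!
# S19 / Move / Bad : the polynomial `Θ` which vanishes (mod `𝔪_A`) at all the bad places of the chart   (leaf MOVE-J)

`J * t ^ r = B(t)`, `Θ = X * ∏_{b ∈ T'} (B - b X^r)`.

SKETCH.
* `isUnit_leadingCoeff_theta`: `R` is a domain: `leadingCoeff_mul`, `leadingCoeff_prod`, `leadingCoeff_X`; `leadingCoeff (B - C b * X^r) = leadingCoeff B` (`leadingCoeff_sub_of_degree_lt`, `degree_C_mul_X_pow_le`, `hdeg`); `IsUnit` of a finite product (`Finset.prod_induction` / `IsUnit.prod`…).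
* `theta_mem_nonunits`: `𝒲 := Wc hL 𝒜 P`.  `j (evR t p) ∈ 𝒲` for all `p` (this is `(moveFam_mid hL H).evR_mem` applied to `t ∈ 𝒲.comap j`).
  If `j t ∈ 𝒲.nonunits`: `Θ(t) = t * (..)`.  Otherwise `(j t)⁻¹ ∈ 𝒲` (`inv_mem_of_notMem_nonunits`), `j J = j (B(t)) * (j t)⁻¹ ^ r ∈ 𝒲`, so `hbad` gives `b ∈ T'` with `j J - ι b ∈ 𝔪`;
  `j (evR t (B - C b * X^r)) = (j t)^r * (j J - ι b) ∈ 𝔪` (`evR_C`, `evR_X`, `rE_apply`, `H.hj`), and `Θ = (B - C b X^r) * q` (`Finset.dvd_prod_of_mem`, `Dvd.dvd.mul_left`).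
-/

noncomputable section

namespace Fermat.Agent.S19.Move

open Polynomial IntermediateField AlgebraicCurve Fermat.Agent.S18 Fermat.Agent.S34 Fermat.Agent.S24
  Fermat.Agent.DIV

variable {R K F : Type} [CommRing R] [IsDomain R] [IsDiscreteValuationRing R] [Field K] [CharZero K]
  [Algebra R K] [IsFractionRing R K] [Field F] [Algebra K F] {ϖ : R}
  {Ω L : Type} [Field Ω] [Field L] [Algebra Ω L] [IsAlgClosed Ω] [CharZero Ω] (hL : IsFF1 Ω L)
  {𝒜 : ValuationSubring Ω} {ιK : K →+* Ω} {j : F →+* L}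

/-- the polynomial `Θ`. -/
def theta (B : R[X]) (r : ℕ) (T' : Finset R) : R[X] := X * ∏ b ∈ T', (B - C b * X ^ r)

theorem isUnit_leadingCoeff_theta {B : R[X]} {r : ℕ} (hB : IsUnit B.leadingCoeff)
    (hdeg : r < B.natDegree) (T' : Finset R) : IsUnit (theta B r T').leadingCoeff := by
  have h1 : ∀ b : R, (B - C b * X ^ r).leadingCoeff = B.leadingCoeff := by
    intro b
    apply leadingCoeff_sub_of_degree_lt
    refine lt_of_le_of_lt (degree_C_mul_X_pow_le r b) ?_
    have hB0 : B ≠ 0 := by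
      rintro rfl
      simp at hdeg
    rw [degree_eq_natDegree hB0]
    exact_mod_cast hdeg
  unfold theta
  rw [leadingCoeff_mul, leadingCoeff_X, one_mul, leadingCoeff_prod]
  simp only [h1]
  rw [Finset.prod_const]
  exact hB.pow _

/-- `j (evR t p)` lies in the composite ring as soon as `j t` does. -/
theorem bad_evR_mem (H : MidHyp ϖ 𝒜 ιK j) {t : F} (P : Place Ω L) (ht : j t ∈ Wc hL 𝒜 P)
    (p : R[X]) : j (evR R K t p) ∈ Wc hL 𝒜 P := by
  induction p using Polynomial.induction_on' with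
  | add p q hp hq => rw [map_add, map_add]; exact add_mem hp hq
  | monomial n a =>
    rw [← C_mul_X_pow_eq_monomial, map_mul, map_pow, evR_C, evR_X, map_mul, map_pow, rE_apply, H.hj]
    exact mul_mem ((algebraMap_mem_Wc hL 𝒜 P).2 (H.R_mem a)) (pow_mem ht n)

theorem theta_mem_nonunits (H : MidHyp ϖ 𝒜 ιK j) {t J : F} {B : R[X]} {r : ℕ}
    (hrel : J * t ^ r = evR R K t B) (T' : Finset R) (P : Place Ω L) (ht : j t ∈ Wc hL 𝒜 P)
    (hbad : j J ∉ Wc hL 𝒜 P ∨ ∃ b ∈ T',
      j J - algebraMap Ω L (ιK (algebraMap R K b)) ∈ (Wc hL 𝒜 P).nonunits) :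
    j (evR R K t (theta B r T')) ∈ (Wc hL 𝒜 P).nonunits := by
  have hev := bad_evR_mem hL H P ht
  by_cases htn : j t ∈ (Wc hL 𝒜 P).nonunits
  · unfold theta
    rw [map_mul, evR_X, map_mul]
    exact mul_mem_nonunits' _ htn (hev _)
  · have hinv : (j t)⁻¹ ∈ Wc hL 𝒜 P := inv_mem_of_notMem_nonunits _ ht htn
    have ht0 : j t ≠ 0 := fun h0 => htn (by rw [h0]; exact zero_mem_nonunits _)
    have hJ : j J = j (evR R K t B) * (j t)⁻¹ ^ r := by
      rw [← hrel, map_mul, map_pow, mul_assoc, ← mul_pow, mul_inv_cancel₀ ht0, one_pow, mul_one]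
    have hJm : j J ∈ Wc hL 𝒜 P := by
      rw [hJ]
      exact mul_mem (hev _) (pow_mem hinv r)
    rcases hbad with hbad | ⟨b, hb, hbm⟩
    · exact absurd hJm hbad
    · have hfac : j (evR R K t (B - C b * X ^ r)) =
          (j t) ^ r * (j J - algebraMap Ω L (ιK (algebraMap R K b))) := by
        rw [map_sub, map_mul, map_pow, evR_C, evR_X, map_sub, map_mul, map_pow, rE_apply, H.hj,
          ← hrel, map_mul, map_pow]
        ring
      obtain ⟨q, hq⟩ : (B - C b * X ^ r) ∣ theta B r T' :=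
        Dvd.dvd.mul_left (Finset.dvd_prod_of_mem (fun b => B - C b * X ^ r) hb) X
      rw [hq, map_mul, map_mul, hfac]
      exact mul_mem_nonunits' _ (mul_mem_nonunits _ (pow_mem ht r) hbm) (hev q)

end Fermat.Agent.S19.Move
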