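import Fermat.Agent.S19.Move.Key
import Fermat.Agent.S19.Move.Bad
import Fermat.Agent.S34.BR.IntB

set_option autoImplicit false
set_option linter.unusedSectionVars false

/-!
# S19 / Move / Chart : the key statement at one place, from a chart over a number field   (leaf MOVE-N)

SKETCH.  `R := ↥(A.comap ι)`.  `H : MidHyp ϖ A ι jE`: `hj`; `R_mem r := r.2`; `unif`: `S18.DVR.mem_nonunits_comap ι A`, and `(ϖ : K) ∈ (A.comap ι).nonunits` because `ϖ` is not a unit
 (`ValuationSubring.mem_nonunits_iff_exists_mem_maximalIdeal` / `IsLocalRing.mem_maximalIdeal`, `hϖ.not_isUnit`); `K_mem a ha := ⟨⟨a, ha⟩, rfl⟩`.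
 `hf₀ : IsIntegral (Algebra.adjoin K {t}) f₀ := S34.IntB.descend ι jE hj (S34.IntB.isIntegralElem ι) t f₀ hfint`.
 `T' : Finset R := T.image g`, `g τ := if h : ∃ r : R, τ = some (ι r) then h.choose else 0` (classical).
 `move_mid (hFF M) H hϖ h1 P₀ ht hrat f₀ hf₀ hf1 hfW (theta B r T') (isUnit_leadingCoeff_theta hB hdeg T')` gives `u`.
 Far: let `τ ∈ T`, `Close A (jv M P) τ`; `close_cases`: either `jF M ∉ Wc P`, or `τ = some b`, `b ∈ A`, `jF M - b ∈ 𝔪`; then `b = ι b'` (`hT`), `b' ∈ R`, so `g τ =: r₁ ∈ T'` with `ι r₁ = b`.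
 `theta_mem_nonunits (hFF M) H hrel T' P (jE t ∈ Wc P) hbad` (rewrite `jE jj = jF M`) contradicts the conclusion of `move_mid`.
-/

noncomputable section

namespace Fermat.Agent.S19.Move

open AlgebraicCurve ModularCurve Polynomial
open Fermat.Agent.S24 (Kb FN IsFF1)
open Fermat.Agent.S18 (evR rE)
open Fermat.Agent.S34 (RatAt Chart1)
open Fermat.Agent.DIV (valAt valOpt)

theorem key_chart {M : ℕ} [NeZero M] (A : ValuationSubring Kb) (T : Finset (Option Kb))
    (P₀ : Place Kb (FN M)) {K : Type} [Field K] [CharZero K] (ι : K →+* Kb)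
    [IsDiscreteValuationRing ↥(A.comap ι)] {ϖ : ↥(A.comap ι)} (hϖ : Irreducible ϖ)
    (hT : ∀ b : Kb, some b ∈ T → ∃ b' : K, ι b' = b)
    {E : Type} [Field E] [Algebra K E] (jE : E →+* FN M)
    (hj : ∀ c : K, jE (algebraMap K E c) = algebraMap Kb (FN M) (ι c))
    {t : E} {V : ValuationSubring E} (h1 : Chart1 K ϖ t V) (ht : jE t ∈ Wc (hFF M) A P₀)
    (hrat : RatAt K (fun (v : Place Kb (FN M)) (z : E) => v.ord (jE z)) P₀)
    (f₀ : E) (hfint : IsIntegral (Algebra.adjoin Kb {jE t}) (jE f₀)) (hf1 : P₀.ord (jE f₀) = 1)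
    (hfW : ∀ P : Place Kb (FN M), P ≠ P₀ → 0 ≤ P.ord (jE t) →
      valAt (hFF M) P (jE t) = valAt (hFF M) P₀ (jE t) → P.ord (jE f₀) = 0)
    {jj : E} (hjj : jE jj = Fermat.Agent.S24.jF M) {B : (↥(A.comap ι))[X]} {r : ℕ}
    (hB : IsUnit B.leadingCoeff) (hdeg : r < B.natDegree)
    (hrel : jj * t ^ r = evR ↥(A.comap ι) K t B) :
    ∃ u : FN M, u ≠ 0 ∧ P₀.ord u = 1 ∧
      ∀ P : Place Kb (FN M), P ≠ P₀ → P.ord u ≠ 0 → Far M A T P := by
  classical
  have H : MidHyp ϖ A ι jE :=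
    { hj := hj
      R_mem := fun r => r.2
      unif := by
        rw [← Fermat.Agent.S18.DVR.mem_nonunits_comap ι A,
          ValuationSubring.mem_nonunits_iff_exists_mem_maximalIdeal]
        refine ⟨ϖ.2, ?_⟩
        rw [IsLocalRing.mem_maximalIdeal, mem_nonunits_iff]
        exact hϖ.not_isUnit
      K_mem := fun a ha => ⟨⟨a, ha⟩, rfl⟩ }
  have hf₀ : IsIntegral (Algebra.adjoin K {t}) f₀ :=
    Fermat.Agent.S34.IntB.descend ι jE hj (Fermat.Agent.S34.IntB.isIntegralElem ι) t f₀ hfint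
  let g : Option Kb → ↥(A.comap ι) := fun τ =>
    if h : ∃ r : ↥(A.comap ι), τ = some (ι (r : K)) then h.choose else 0
  obtain ⟨u, hu0, hu1, hu⟩ := move_mid (hFF M) H hϖ h1 P₀ ht hrat f₀ hf₀ hf1 hfW
    (theta B r (T.image g)) (isUnit_leadingCoeff_theta hB hdeg (T.image g))
  refine ⟨u, hu0, hu1, fun P hP hPu τ hτ hclose => ?_⟩
  obtain ⟨h2, h3⟩ := hu P hP hPu
  apply h3
  apply theta_mem_nonunits (hFF M) H hrel (T.image g) P h2
  rw [hjj]
  rcases close_cases hclose with h4 | ⟨b, rfl, hbA, h4⟩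
  · exact Or.inl h4
  · right
    obtain ⟨b', hb'⟩ := hT b hτ
    have hex : ∃ r : ↥(A.comap ι), some b = some (ι (r : K)) :=
      ⟨⟨b', by
        show ι b' ∈ A
        rw [hb']
        exact hbA⟩, by rw [hb']⟩
    refine ⟨g (some b), Finset.mem_image_of_mem g hτ, ?_⟩
    have hg : ι ((g (some b) : ↥(A.comap ι)) : K) = b := by
      have h5 : g (some b) = hex.choose := dif_pos hex
      rw [h5]
      exact (Option.some.inj hex.choose_spec).symm
    have h6 : algebraMap ↥(A.comap ι) K (g (some b)) = ((g (some b) : ↥(A.comap ι)) : K) := rfl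
    rw [h6, hg]
    exact h4

end Fermat.Agent.S19.Move
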