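import Fermat.Agent.DIV.Val
import Fermat.Agent.S34.SS.Basic

set_option autoImplicit false
set_option linter.unusedSectionVars false

/-!
# S19 / Move / Comp : the composite valuation ring of a place and a valuation ring of the constants   (leaf MOVE-F)

`Wc hL 𝒜 v = {z | z regular at v, z(v) ∈ 𝒜}`.

SKETCH.  ring axioms: `DIV.valAt_add`, `valAt_mul`, `valAt_one`, `valAt_zero`, (`valAt_sub` with `0` for `neg`).
 `mem_or_inv_mem'`: if `z ∉ O_v` then `z⁻¹ ∈ O_v` has positive order (`Place.ord_inv`, `S24.mem_iff_ord_nonneg`), so its value is `0` (`DIV.valAt_eq_zero_iff`).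
   If `z ∈ O_v`, `a = z(v)`: `a ∈ 𝒜` done; otherwise `a ≠ 0`, `z⁻¹ ∈ O_v` (`DIV.inv_mem_of_valAt_ne_zero`), `z⁻¹(v) = a⁻¹` (`valAt_mul`, `valAt_one`) and `a⁻¹ ∈ 𝒜`.
 `mem_Wc_nonunits`: `S34.ss_mem_nonunits_iff : a ∈ O.nonunits ↔ a = 0 ∨ a⁻¹ ∉ O` on both sides.
-/

noncomputable section

namespace Fermat.Agent.S19.Move

open AlgebraicCurve Fermat.Agent.S24 Fermat.Agent.DIV Fermat.Agent.S18 Fermat.Agent.S34

variable {Ω L : Type} [Field Ω] [Field L] [Algebra Ω L] [IsAlgClosed Ω] (hL : IsFF1 Ω L)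
  (𝒜 : ValuationSubring Ω) (v : Place Ω L)

theorem valAt_neg' {z : L} (hz : z ∈ v.toValuationSubring) : valAt hL v (-z) = -valAt hL v z := by
  have h := valAt_sub hL v (zero_mem v.toValuationSubring) hz
  rw [zero_sub, valAt_zero, zero_sub] at h
  exact h

theorem valAt_inv' {z : L} (hz : valAt hL v z ≠ 0) : valAt hL v z⁻¹ = (valAt hL v z)⁻¹ := by
  have hmem : z ∈ v.toValuationSubring := by
    by_contra hn
    exact hz (dif_neg hn)
  have hz0 : z ≠ 0 := by
    rintro rfl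
    exact hz (valAt_zero hL v)
  have h1 := valAt_mul hL v hmem (inv_mem_of_valAt_ne_zero hL v hz)
  rw [mul_inv_cancel₀ hz0, valAt_one] at h1
  exact eq_inv_of_mul_eq_one_right h1.symm

/-- the composite valuation ring. -/
def Wc : ValuationSubring L where
  carrier := {z | z ∈ v.toValuationSubring ∧ valAt hL v z ∈ 𝒜}
  mul_mem' := by
    rintro a b ⟨ha, ha'⟩ ⟨hb, hb'⟩
    exact ⟨mul_mem ha hb, by rw [valAt_mul hL v ha hb]; exact 𝒜.mul_mem _ _ ha' hb'⟩
  one_mem' := ⟨one_mem _, by rw [valAt_one]; exact 𝒜.one_mem⟩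
  add_mem' := by
    rintro a b ⟨ha, ha'⟩ ⟨hb, hb'⟩
    exact ⟨add_mem ha hb, by rw [valAt_add hL v ha hb]; exact 𝒜.add_mem _ _ ha' hb'⟩
  zero_mem' := ⟨zero_mem _, by rw [valAt_zero]; exact 𝒜.zero_mem⟩
  neg_mem' := by
    rintro a ⟨ha, ha'⟩
    exact ⟨neg_mem ha, by rw [valAt_neg' hL v ha]; exact 𝒜.neg_mem _ ha'⟩
  mem_or_inv_mem' := by
    intro z
    by_cases hz : z ∈ v.toValuationSubring
    · by_cases ha : valAt hL v z ∈ 𝒜
      · exact Or.inl ⟨hz, ha⟩
      · right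
        have ha0 : valAt hL v z ≠ 0 := by
          intro h0
          rw [h0] at ha
          exact ha 𝒜.zero_mem
        refine ⟨inv_mem_of_valAt_ne_zero hL v ha0, ?_⟩
        rw [valAt_inv' hL v ha0]
        exact (𝒜.mem_or_inv_mem _).resolve_left ha
    · right
      have hz0 : z ≠ 0 := by
        rintro rfl
        exact hz (zero_mem _)
      have h1 : v.ord z < 0 := by
        by_contra hn
        exact hz (mem_of_ord_nonneg v (not_lt.1 hn))
      have h2 : 0 < v.ord z⁻¹ := by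
        rw [v.ord_inv]
        omega
      have h3 : z⁻¹ ∈ v.toValuationSubring := mem_of_ord_nonneg v h2.le
      refine ⟨h3, ?_⟩
      rw [(valAt_eq_zero_iff hL v h3 (inv_ne_zero hz0)).2 h2]
      exact 𝒜.zero_mem

theorem mem_Wc {z : L} : z ∈ Wc hL 𝒜 v ↔ z ∈ v.toValuationSubring ∧ valAt hL v z ∈ 𝒜 := Iff.rfl

theorem mem_Wc_nonunits {z : L} :
    z ∈ (Wc hL 𝒜 v).nonunits ↔ z ∈ v.toValuationSubring ∧ valAt hL v z ∈ 𝒜.nonunits := by
  rw [ss_mem_nonunits_iff, ss_mem_nonunits_iff, mem_Wc]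
  constructor
  · rintro (rfl | h)
    · exact ⟨zero_mem _, Or.inl (valAt_zero hL v)⟩
    · by_cases hz : z ∈ v.toValuationSubring
      · refine ⟨hz, ?_⟩
        by_cases ha0 : valAt hL v z = 0
        · exact Or.inl ha0
        · right
          intro hinv
          apply h
          exact ⟨inv_mem_of_valAt_ne_zero hL v ha0, by rw [valAt_inv' hL v ha0]; exact hinv⟩
      · exfalso
        apply h
        have hz0 : z ≠ 0 := by
          rintro rfl
          exact hz (zero_mem _)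
        have h1 : v.ord z < 0 := by
          by_contra hn
          exact hz (mem_of_ord_nonneg v (not_lt.1 hn))
        have h2 : 0 < v.ord z⁻¹ := by
          rw [v.ord_inv]
          omega
        have h3 : z⁻¹ ∈ v.toValuationSubring := mem_of_ord_nonneg v h2.le
        refine ⟨h3, ?_⟩
        rw [(valAt_eq_zero_iff hL v h3 (inv_ne_zero hz0)).2 h2]
        exact 𝒜.zero_mem
  · rintro ⟨hz, h⟩
    by_cases hz0 : z = 0
    · exact Or.inl hz0
    · right
      rintro ⟨h3, h4⟩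
      rcases h with h | h
      · have h5 := (valAt_eq_zero_iff hL v hz hz0).1 h
        have h6 := ord_nonneg_of_mem v h3
        rw [v.ord_inv] at h6
        omega
      · by_cases ha0 : valAt hL v z = 0
        · have h5 := (valAt_eq_zero_iff hL v hz hz0).1 ha0
          have h6 := ord_nonneg_of_mem v h3
          rw [v.ord_inv] at h6
          omega
        · rw [valAt_inv' hL v ha0] at h4
          exact h h4

theorem algebraMap_mem_Wc {a : Ω} : algebraMap Ω L a ∈ Wc hL 𝒜 v ↔ a ∈ 𝒜 := by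
  rw [mem_Wc, valAt_algebraMap]
  exact ⟨fun h => h.2, fun h => ⟨v.algebraMap_mem' a, h⟩⟩

theorem algebraMap_mem_Wc_nonunits {a : Ω} :
    algebraMap Ω L a ∈ (Wc hL 𝒜 v).nonunits ↔ a ∈ 𝒜.nonunits := by
  rw [mem_Wc_nonunits, valAt_algebraMap]
  exact ⟨fun h => h.2, fun h => ⟨v.algebraMap_mem' a, h⟩⟩

/-- functions vanishing at `v` are nonunits. -/
theorem mem_Wc_nonunits_of_ord_pos {z : L} (hz : 0 < v.ord z) : z ∈ (Wc hL 𝒜 v).nonunits := by
  rw [mem_Wc_nonunits]
  have h3 : z ∈ v.toValuationSubring := mem_of_ord_nonneg v hz.le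
  have hz0 : z ≠ 0 := by
    rintro rfl
    rw [Place.ord_zero] at hz
    exact lt_irrefl _ hz
  refine ⟨h3, ?_⟩
  rw [(valAt_eq_zero_iff hL v h3 hz0).2 hz]
  exact zero_mem_nonunits 𝒜

theorem ord_nonneg_of_mem_Wc {z : L} (hz : z ∈ Wc hL 𝒜 v) : 0 ≤ v.ord z :=
  ord_nonneg_of_mem v hz.1

/-- a unit of `Wc` has order `0`. -/
theorem ord_eq_zero_of_unit_Wc {z : L} (hz : z ∈ Wc hL 𝒜 v) (hz' : z ∉ (Wc hL 𝒜 v).nonunits) :
    v.ord z = 0 := by
  have h1 := ord_nonneg_of_mem_Wc hL 𝒜 v hz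
  by_contra hne
  exact hz' (mem_Wc_nonunits_of_ord_pos hL 𝒜 v (by omega))

end Fermat.Agent.S19.Move
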