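import Fermat.Agent.S34.LF
import Fermat.Agent.S34.Val
import Fermat.Agent.S34.SS.DedC

set_option autoImplicit false
set_option linter.unusedSectionVars false

/-!
# S19 / Move / Defs : abstract language of chapter MOVE

`R` a DVR with uniformiser `ϖ`, `K = Frac R`, `F / K` a function field, `t : F` a chart parameter, `C = CInt R K t`.
`w i` (`i : I`) : the horizontal discrete valuations of `F` (restrictions of the places of `F ⊗ ℚ̄`),
`W i ⊆ O_i = valO i` : the COMPOSITE valuation ring `{z | z regular at i, z(i) ∈ A}` (rank two).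
 * `t ∈ W i`  means  "`t(i) ∈ A`";  `z ∈ (W i).nonunits` means "`z(i) ∈ 𝔪_A`".
 * `cen V hC` : the centre of the valuation ring `V ⊇ C` on the chart `C`.
-/

noncomputable section

namespace Fermat.Agent.S19.Move

open Polynomial IntermediateField Fermat.Agent.S18 Fermat.Agent.S34

/-- the horizontal valuations `w i` and the composite valuation rings `W i`. -/
structure MoveFam (R K : Type) {F I : Type} [CommRing R] [Field K] [Algebra R K] [Field F]
    [Algebra K F] (ϖ : R) (w : I → F → ℤ) (W : I → ValuationSubring F) : Prop where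
  fam : ValFam K w
  le : ∀ (i : I) (z : F), z ∈ W i → z ≠ 0 → 0 ≤ w i z
  pos : ∀ (i : I) (z : F), z ≠ 0 → 0 < w i z → z ∈ (W i).nonunits
  R_mem : ∀ (i : I) (r : R), rE R K F r ∈ W i
  unif : ∀ i : I, rE R K F ϖ ∈ (W i).nonunits
  K_mem : ∀ (i : I) (a : K), algebraMap K F a ∈ W i → ∃ r : R, algebraMap R K r = a

variable {R K F : Type} [CommRing R] [Field K] [Algebra R K] [Field F] [Algebra K F]

/-- the centre on the chart `t` of a valuation ring containing the chart. -/
def cen (V : ValuationSubring F) {t : F} (hC : ∀ c ∈ CInt R K t, c ∈ V) : Ideal (CInt R K t) where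
  carrier := {c | (c : F) ∈ V.nonunits}
  add_mem' := fun ha hb => add_mem_nonunits V ha hb
  zero_mem' := zero_mem_nonunits V
  smul_mem' := fun c _ hx => mul_mem_nonunits V (hC c c.2) hx

theorem mem_cen {V : ValuationSubring F} {t : F} {hC : ∀ c ∈ CInt R K t, c ∈ V}
    {c : CInt R K t} : c ∈ cen V hC ↔ (c : F) ∈ V.nonunits := Iff.rfl

theorem cen_isPrime (V : ValuationSubring F) {t : F} (hC : ∀ c ∈ CInt R K t, c ∈ V) :
    (cen V hC).IsPrime := by
  rw [Ideal.isPrime_iff]
  constructor
  · rw [Ne, Ideal.eq_top_iff_one, mem_cen]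
    exact one_notMem_nonunits V
  · intro x y hxy
    rw [mem_cen] at hxy ⊢
    rw [mem_cen]
    by_contra hcon
    push Not at hcon
    exact ss_mul_notMem V hcon.1 hcon.2 hxy

/-- `evR t Φ` as an element of the chart. -/
def evC (t : F) (Φ : R[X]) : CInt R K t := ⟨evR R K t Φ, evR_mem_CInt t Φ⟩

@[simp] theorem coe_evC (t : F) (Φ : R[X]) : ((evC t Φ : CInt R K t) : F) = evR R K t Φ := rfl

end Fermat.Agent.S19.Move
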