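import Fermat.Agent.S19.Move.Defs

set_option autoImplicit false
set_option linter.unusedSectionVars false

/-!
# S19 / Move / Fin : finitely many closed points on `ϖ = Φ(t) = 0`   (leaf MOVE-B)

SKETCH.  `Z := C ⧸ span {unifC t ϖ}` is a Dedekind domain (`Chart1.isDedekindDomain_quot hϖ h1`), `π = Ideal.Quotient.mk _`.
 `φ := π (evC t Φ) ≠ 0`: `Ideal.Quotient.eq_zero_iff_mem`, `Chart1.mem_span_unif_iff`, `Chart1.evR_notMem hϖ h1 hΦ`.
 `J := Ideal.span {φ} ≠ ⊥`.  `J.minimalPrimes` is finite (`Ideal.finite_minimalPrimes_of_isNoetherianRing`).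
 If `n'` is a prime of `C` containing `unifC t ϖ` and `evC t Φ`, then `P := n'.map π` is prime (`Ideal.map_isPrime_of_surjective`, `Ideal.mk_ker`), `J ≤ P`, `n' = P.comap π` (`Ideal.comap_map_of_surjective` / `Ideal.mem_quotient_iff_mem`).
 `Ideal.exists_minimalPrimes_le : J ≤ P → ∃ p ∈ J.minimalPrimes, p ≤ P`; `p ≠ ⊥` (contains `φ`), `p` prime, so maximal (`Ideal.IsPrime.isMaximal` in a Dedekind domain), so `p = P`.
 Hence the set is contained in the image of `J.minimalPrimes` under `Ideal.comap π`.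
-/

noncomputable section

namespace Fermat.Agent.S19.Move

open Polynomial IntermediateField Fermat.Agent.S18 Fermat.Agent.S34

variable {R K F : Type} [CommRing R] [IsDomain R] [IsDiscreteValuationRing R] [Field K] [CharZero K]
  [Algebra R K] [IsFractionRing R K] [Field F] [Algebra K F] {ϖ : R}

theorem finite_primes (hϖ : Irreducible ϖ) {t : F} {V : ValuationSubring F} (h1 : Chart1 K ϖ t V)
    {Φ : R[X]} (hΦ : ¬ C ϖ ∣ Φ) :
    {n' : Ideal (CInt R K t) | n'.IsPrime ∧ unifC t ϖ ∈ n' ∧ evC t Φ ∈ n'}.Finite := by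
  have hded := h1.isDedekindDomain_quot hϖ
  set I : Ideal (CInt R K t) := Ideal.span {unifC (K := K) t ϖ} with hI
  let π := Ideal.Quotient.mk I
  have hπs : Function.Surjective π := Ideal.Quotient.mk_surjective
  have hφ : π (evC t Φ) ≠ 0 := by
    intro h
    rw [Ideal.Quotient.eq_zero_iff_mem, h1.mem_span_unif_iff hϖ] at h
    exact h1.evR_notMem hϖ hΦ h
  set J : Ideal (CInt R K t ⧸ I) := Ideal.span {π (evC t Φ)} with hJ
  have hfin : J.minimalPrimes.Finite := Ideal.finite_minimalPrimes_of_isNoetherianRing _ J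
  refine (hfin.image (Ideal.comap π)).subset ?_
  rintro n' ⟨hp, hu, he⟩
  have hker : RingHom.ker π ≤ n' := by
    rw [Ideal.mk_ker, hI, Ideal.span_singleton_le_iff_mem]
    exact hu
  have hPprime : (n'.map π).IsPrime := Ideal.map_isPrime_of_surjective hπs hker
  have hJP : J ≤ n'.map π := by
    rw [hJ, Ideal.span_singleton_le_iff_mem]
    exact Ideal.mem_map_of_mem π he
  obtain ⟨P, hPmin, hPle⟩ := Ideal.exists_minimalPrimes_le hJP
  have hPprime' : P.IsPrime := hPmin.1.1
  have hPne : P ≠ ⊥ := by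
    intro h
    have h2 : π (evC t Φ) ∈ P := hPmin.1.2 (Ideal.mem_span_singleton_self _)
    rw [h, Ideal.mem_bot] at h2
    exact hφ h2
  have hPmax : P.IsMaximal := hPprime'.isMaximal hPne
  have hPeq : P = n'.map π := hPmax.eq_of_le hPprime.ne_top hPle
  refine ⟨P, hPmin, ?_⟩
  rw [hPeq, Ideal.comap_map_of_surjective π hπs]
  exact sup_eq_left.2 (by rwa [← RingHom.ker_eq_comap_bot])

end Fermat.Agent.S19.Move
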