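import Fermat.Agent.S19.Defs
import Fermat.Agent.S19.Move.Comp

set_option autoImplicit false
set_option linter.unusedSectionVars false

/-!
# S19 / Move / Key : the key statements of chapter MOVE, and `Close` in terms of the composite valuation ring   (leaf MOVE-I)

SKETCH of `close_cases`.  `jv N P = valOpt (hFF N) P (jF N)`.  `rcases h : jv N P` : `none`: `DIV.valOpt_eq_none_iff`, `jF ∉ O_P`: left.
 `some a` (`DIV.valOpt_eq_some_iff`: `jF ∈ O_P`, `valAt = a`); `τ = none`: `a ∉ A`: left; `τ = some b`: `(a ∉ A ∧ b ∉ A)`: left; `(a ∈ A, b ∈ A, a - b ∈ 𝔪)`: right, `mem_Wc_nonunits`, `DIV.valAt_sub`, `DIV.valAt_algebraMap`.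
-/

noncomputable section

namespace Fermat.Agent.S19.Move

open AlgebraicCurve ModularCurve
open Fermat.Agent.S24 (Kb FN IsFF1)
open Fermat.Agent.DIV (valAt valOpt)

variable (N : ℕ) [NeZero N] (A : ValuationSubring Kb) (T : Finset (Option Kb))

/-- the place `P` is far from `T`. -/
def Far (P : Place Kb (FN N)) : Prop := ∀ τ ∈ T, ¬ Close A (jv N P) τ

/-- every place is a simple zero of a function all of whose other zeros and poles are far from `T`. -/
def KeyStatement : Prop :=
  ∀ P₀ : Place Kb (FN N), ∃ u : FN N, u ≠ 0 ∧ P₀.ord u = 1 ∧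
    ∀ P : Place Kb (FN N), P ≠ P₀ → P.ord u ≠ 0 → Far N A T P

/-- the same for the bad places only. -/
def KeyBad : Prop :=
  ∀ P₀ : Place Kb (FN N), ¬ Far N A T P₀ → ∃ u : FN N, u ≠ 0 ∧ P₀.ord u = 1 ∧
    ∀ P : Place Kb (FN N), P ≠ P₀ → P.ord u ≠ 0 → Far N A T P

variable {N A}

theorem close_cases {P : Place Kb (FN N)} {τ : Option Kb} (h : Close A (jv N P) τ) :
    Fermat.Agent.S24.jF N ∉ Wc (hFF N) A P ∨
      ∃ b : Kb, τ = some b ∧ b ∈ A ∧
        Fermat.Agent.S24.jF N - algebraMap Kb (FN N) b ∈ (Wc (hFF N) A P).nonunits := by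
  rcases hj : jv N P with _ | a
  · left
    have h1 := (Fermat.Agent.DIV.valOpt_eq_none_iff (hFF N) P).1 hj
    intro hmem
    have h2 := ord_nonneg_of_mem_Wc (hFF N) A P hmem
    omega
  · obtain ⟨h1, h2⟩ := (Fermat.Agent.DIV.valOpt_eq_some_iff (hFF N) P).1 hj
    rw [hj] at h
    have hleft : a ∉ A → Fermat.Agent.S24.jF N ∉ Wc (hFF N) A P := by
      intro ha hmem
      apply ha
      rw [← h2]
      exact hmem.2
    rcases τ with _ | b
    · exact Or.inl (hleft h)
    · rcases h with ⟨ha, -⟩ | ⟨ha, hb, hab⟩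
      · exact Or.inl (hleft ha)
      · right
        refine ⟨b, rfl, hb, ?_⟩
        rw [mem_Wc_nonunits]
        refine ⟨sub_mem h1 (P.algebraMap_mem' b), ?_⟩
        rw [Fermat.Agent.DIV.valAt_sub (hFF N) P h1 (P.algebraMap_mem' b),
          Fermat.Agent.DIV.valAt_algebraMap, h2]
        exact hab

end Fermat.Agent.S19.Move
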