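import Fermat.Agent.DIV.Val
import Fermat.Agent.S24.Avoid

set_option autoImplicit false
set_option linter.unusedSectionVars false

/-!
# S19 / Move / Sep : an integral uniformiser which separates a place from the rest of its fibre   (leaf MOVE-G)
-/

noncomputable section

namespace Fermat.Agent.S19.Move

open AlgebraicCurve Fermat.Agent.S24 Fermat.Agent.DIV IsDedekindDomain IntermediateField
open UniqueFactorizationMonoid
open scoped IntermediateField.algebraAdjoinAdjoin

theorem sep_ord_eq_count {K F : Type} [Field K] [Field F] [Algebra K F]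
    {R : Type} [CommRing R] [IsDedekindDomain R] [Algebra R F] [IsFractionRing R F]
    [Algebra K R] [IsScalarTower K R F] (y : R) (hy : y ≠ 0) (w : HeightOneSpectrum R) :
    (Place.ofHeightOneSpectrum (K := K) w).ord (algebraMap R F y) =
      ((normalizedFactors (Ideal.span {y} : Ideal R)).count w.asIdeal : ℤ) := by
  classical
  have hyF : algebraMap R F y ≠ 0 := by
    simpa using (IsFractionRing.injective R F).ne hy
  rw [ord_ofHeightOneSpectrum w hyF, w.valuation_of_algebraMap, w.intValuation_if_neg hy,
    WithZero.log_exp, neg_neg,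
    Ideal.count_associates_factors_eq (by simpa using hy) w.isPrime w.ne_bot]

theorem exists_unif_sep {K F : Type} [Field K] [Field F] [Algebra K F] [IsAlgClosed K] [CharZero K]
    (h : IsFF1 K F) {y : F} (hy : Transcendental K y) (v : Place K F) (hv : 0 ≤ v.ord y) :
    ∃ f : F, IsIntegral (Algebra.adjoin K {y}) f ∧ v.ord f = 1 ∧
      ∀ w : Place K F, w ≠ v → 0 ≤ w.ord y → valAt h w y = valAt h v y → w.ord f = 0 := by
  classical
  have := SumOrd.isPrincipalIdealRing_adjoin hy
  have := h.finiteDimensional hy
  have : IsDedekindDomain (integralClosure (Algebra.adjoin K {y}) F) :=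
    integralClosure.isDedekindDomain (Algebra.adjoin K {y}) K⟮y⟯ F
  have : IsFractionRing (integralClosure (Algebra.adjoin K {y}) F) F :=
    integralClosure.isFractionRing_of_finite_extension K⟮y⟯ F
  have : IsScalarTower K (integralClosure (Algebra.adjoin K {y}) F) F :=
    IsScalarTower.of_algebraMap_eq (fun _ => rfl)
  -- the finite set of the other places of the fibre
  have hfin : {w : Place K F | w ≠ v ∧ 0 ≤ w.ord y ∧ valAt h w y = valAt h v y}.Finite := by
    have hy' : Transcendental K (y - algebraMap K F (valAt h v y)) := by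
      intro halg
      apply hy
      have := halg.add (isAlgebraic_algebraMap (valAt h v y))
      rwa [sub_add_cancel] at this
    refine (finite_ord_pos h hy').subset fun w hw => ?_
    obtain ⟨-, hw1, hw2⟩ := hw
    have hne : y ≠ algebraMap K F (valAt h v y) := by
      intro he
      apply hy
      rw [he]
      exact isAlgebraic_algebraMap _
    exact (valAt_eq_iff h w (mem_of_ord_nonneg w hw1) hne).mp hw2
  set W : Finset (Place K F) := hfin.toFinset with hWdef
  have hWmem : ∀ w, w ∈ W ↔ w ≠ v ∧ 0 ≤ w.ord y ∧ valAt h w y = valAt h v y := by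
    intro w
    rw [hWdef, Set.Finite.mem_toFinset]
    rfl
  obtain ⟨Pv, hPv⟩ := exists_ofHeightOneSpectrum_eq
      (R := integralClosure (Algebra.adjoin K {y}) F) v (SumOrd.mem_of_mem_integralClosure v hv)
  have hch : ∀ w : Place K F, ∃ Pw : HeightOneSpectrum (integralClosure (Algebra.adjoin K {y}) F),
      w ∈ W → Place.ofHeightOneSpectrum (K := K) Pw = w := by
    intro w
    by_cases hw : w ∈ W
    · obtain ⟨Pw, hPw⟩ := exists_ofHeightOneSpectrum_eq
        (R := integralClosure (Algebra.adjoin K {y}) F) w
        (SumOrd.mem_of_mem_integralClosure w ((hWmem w).mp hw).2.1)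
      exact ⟨Pw, fun _ => hPw⟩
    · exact ⟨Pv, fun h => absurd h hw⟩
  choose PW hPW using hch
  let fI : Option (Place K F) → Ideal (integralClosure (Algebra.adjoin K {y}) F) := fun o =>
    match o with
    | none => Pv.asIdeal ^ 2
    | some w => (PW w).asIdeal
  have hnot : ¬ ((Pv.asIdeal : Set (integralClosure (Algebra.adjoin K {y}) F)) ⊆
      ⋃ o ∈ (↑(Finset.insertNone W) : Set (Option (Place K F))), (fI o : Set _)) := by
    intro hsub
    obtain ⟨o, ho, hle⟩ := (Ideal.subset_union_prime (s := Finset.insertNone W) (f := fI) none none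
      (fun i _ hi _ => by
        cases i with
        | none => exact absurd rfl hi
        | some w => exact (PW w).isPrime)).mp hsub
    cases o with
    | none =>
      have h1 : Pv.asIdeal ^ 2 < Pv.asIdeal ^ 1 :=
        Ideal.pow_right_strictAnti Pv.asIdeal Pv.ne_bot Pv.isPrime.ne_top (by norm_num)
      rw [pow_one] at h1
      exact absurd hle (not_le_of_gt h1)
    | some w =>
      have hw : w ∈ W := by simpa using ho
      have heq : Pv.asIdeal = (PW w).asIdeal :=
        Pv.isMaximal.eq_of_le (PW w).isPrime.ne_top hle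
      have : Pv = PW w := HeightOneSpectrum.ext heq
      apply ((hWmem w).mp hw).1
      rw [← hPv, this, hPW w hw]
  rw [Set.not_subset] at hnot
  obtain ⟨b, hbv, hbW⟩ := hnot
  simp only [Finset.mem_coe, Set.mem_iUnion, SetLike.mem_coe, exists_prop, not_exists, not_and]
    at hbW hbv
  have hb2 : b ∉ Pv.asIdeal ^ 2 := hbW none (by simp)
  have hbW' : ∀ w ∈ W, b ∉ (PW w).asIdeal := fun w hw => hbW (some w) (by simpa using hw)
  have hb0 : b ≠ 0 := by
    intro h0
    exact hb2 (h0 ▸ zero_mem _)
  refine ⟨algebraMap _ F b, b.2, ?_, fun w hwv hw1 hw2 => ?_⟩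
  · rw [← hPv, sep_ord_eq_count b hb0 Pv]
    have := Pv.isPrime
    rw [Ideal.count_normalizedFactors_eq (n := 1)]
    · rfl
    · rw [pow_one, Ideal.span_singleton_le_iff_mem]
      exact hbv
    · rw [Ideal.span_singleton_le_iff_mem]
      exact hb2
  · have hw : w ∈ W := (hWmem w).mpr ⟨hwv, hw1, hw2⟩
    have h1 : 0 ≤ w.ord (algebraMap _ F b) :=
      ord_nonneg_of_mem w (SumOrd.mem_of_mem_integralClosure w hw1 b)
    have h2 : ¬ 0 < w.ord (algebraMap _ F b) := by
      intro hpos
      rw [← hPW w hw] at hpos
      exact hbW' w hw ((ord_ofHeightOneSpectrum_pos_iff (K := K) (F := F) (PW w) hb0).mp hpos)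
    omega

end Fermat.Agent.S19.Move
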