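import Fermat.Agent.S19.Move.Key
import Fermat.Agent.S19.Move.Bad
import Fermat.Agent.S19.Move.Sep
import Fermat.Agent.S34.BR.Pack
import Fermat.Agent.S34.BR.IntB
import Fermat.Agent.S34.Inst.Conc

set_option autoImplicit false
set_option linter.unusedSectionVars false

/-!
# S19 / Move / LevelM : the key statement at a level `M` divisible by `(lineOf ℓ).r`   (leaf MOVE-M)
-/

noncomputable section

namespace Fermat.Agent.S19.Move

open AlgebraicCurve ModularCurve Polynomial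
open Fermat.Agent.S24 (Kb FN IsFF1)
open Fermat.Agent.S18 (lineOf toFN xK evR rE CInt)
open Fermat.Agent.S18.V (FK)
open Fermat.Agent.S34 Fermat.Agent.S34.V2
open Fermat.Agent.DIV (valAt valOpt)

/-- the coordinate `x` of the line, at level `M`, over `ℚ̄`. -/
def xN (M ℓ : ℕ) [NeZero M] (hr : (lineOf ℓ).r ∣ M) : FN M :=
  toFN (RingHom.id Kb) M ⟨xK Kb (lineOf ℓ), Mod.out_X Kb ℓ M hr⟩

theorem coe_xN (M ℓ : ℕ) [NeZero M] (hr : (lineOf ℓ).r ∣ M) :
    (xN M ℓ hr).1 = xK Kb (lineOf ℓ) := by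
  rw [xN, Fermat.Agent.S18.toFN_coe, Mod.coeffMap_xK]

theorem transcendental_xN (M ℓ : ℕ) [NeZero M] (hr : (lineOf ℓ).r ∣ M) :
    Transcendental Kb (xN M ℓ hr) := by
  apply Fermat.Agent.S24.transcendental_of_not_mem_range
  rintro ⟨c, hc⟩
  have h1 : (algebraMap Kb (LaurentSeries Kb) c) = xK Kb (lineOf ℓ) := by
    rw [← coe_xN M ℓ hr, ← hc]; rfl
  have h2 := Fermat.Agent.S18.order_xK Kb (lineOf ℓ)
  rw [← h1, algebraMap_laurentSeries_eq_single] at h2
  by_cases hc0 : c = 0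
  · rw [hc0, HahnSeries.single_eq_zero, HahnSeries.order_zero] at h2
    omega
  · rw [HahnSeries.order_single hc0] at h2
    omega

/-- the key statement at `P₀`, from a chart. -/
theorem key_chart (M : ℕ) [NeZero M] (A : ValuationSubring Kb) (T : Finset (Option Kb))
    {R K E : Type} [CommRing R] [IsDomain R] [IsDiscreteValuationRing R] [Field K] [CharZero K]
    [Algebra R K] [IsFractionRing R K] [Field E] [Algebra K E] {ϖ : R} {ι : K →+* Kb}
    {j : E →+* FN M} (H : MidHyp ϖ A ι j) (hϖ : Irreducible ϖ) {t : E} {V : ValuationSubring E}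
    (h1 : Chart1 K ϖ t V) (hT : ∀ b : Kb, some b ∈ T → ∃ c : K, ι c = b)
    {J : E} (hJ : j J = Fermat.Agent.S24.jF M) {B : R[X]} {r : ℕ}
    (hrel : J * t ^ r = evR R K t B) (hB : IsUnit B.leadingCoeff) (hdeg : r < B.natDegree)
    (P₀ : Place Kb (FN M)) (ht : j t ∈ Wc (hFF M) A P₀)
    (hrat : RatAt K (fun (v : Place Kb (FN M)) (z : E) => v.ord (j z)) P₀)
    (f₀ : E) (hf₀ : IsIntegral (Algebra.adjoin Kb {j t}) (j f₀)) (hf1 : P₀.ord (j f₀) = 1)
    (hfW : ∀ P : Place Kb (FN M), P ≠ P₀ → 0 ≤ P.ord (j t) →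
      valAt (hFF M) P (j t) = valAt (hFF M) P₀ (j t) → P.ord (j f₀) = 0) :
    ∃ u : FN M, u ≠ 0 ∧ P₀.ord u = 1 ∧
      ∀ P : Place Kb (FN M), P ≠ P₀ → P.ord u ≠ 0 → Far M A T P := by
  classical
  have hinj : Function.Injective (fun r : R => (some (ι (algebraMap R K r)) : Option Kb)) := by
    intro a b hab
    exact IsFractionRing.injective R K (ι.injective (Option.some.inj hab))
  let T' : Finset R := T.preimage _ hinj.injOn
  obtain ⟨u, hu, hu1, hu2⟩ := move_mid (hFF M) H hϖ h1 P₀ ht hrat f₀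
    (IntB.descend ι j H.hj (IntB.isIntegralElem ι) t f₀ hf₀) hf1 hfW (theta B r T')
    (isUnit_leadingCoeff_theta hB hdeg T')
  refine ⟨u, hu, hu1, fun P hP hPu τ hτ hcl => ?_⟩
  obtain ⟨htP, hΘ⟩ := hu2 P hP hPu
  apply hΘ
  apply theta_mem_nonunits (hFF M) H hrel T' P htP
  rw [hJ]
  rcases close_cases hcl with h | ⟨b, rfl, hbA, hb⟩
  · left; exact h
  · right
    obtain ⟨c, hc⟩ := hT b hτ
    obtain ⟨r', hr'⟩ := H.K_mem c (hc ▸ hbA)
    refine ⟨r', Finset.mem_preimage.2 ?_, ?_⟩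
    · rw [hr', hc]; exact hτ
    · rw [hr', hc]; exact hb

/-! ### the concrete context -/

section conc

variable {R K : Type} [CommRing R] [IsDomain R] [IsDiscreteValuationRing R] [Field K] [CharZero K]
  [Algebra R K] [IsFractionRing R K]
  {M q : ℕ} [NeZero M] [NeZero q] {E : Type} [Field E] [Algebra K E]
  [Algebra E ↥(FK K (M * q))] [IsScalarTower K E ↥(FK K (M * q))]
  {T : Two R K q E ↥(FK K (M * q))}

/-- `E → F_{M,K}`. -/
def concE (hT : IsConc M q T) : E →+* ↥(FK K M) :=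
  RingHom.codRestrict (T.jE : E →+* LaurentSeries K) (FK K M) hT.jE_mem

theorem coe_concE (hT : IsConc M q T) (y : E) : (concE hT y).1 = T.jE y := rfl

theorem concE_algebraMap (hT : IsConc M q T) (c : K) :
    concE hT (algebraMap K E c) = algebraMap K ↥(FK K M) c :=
  Subtype.ext (T.jE.commutes c)

theorem concE_surjective (hT : IsConc M q T) : Function.Surjective (concE hT) := by
  intro f
  obtain ⟨y, hy⟩ := hT.jE_surj f.1 f.2
  exact ⟨y, Subtype.ext hy⟩

/-- `E → F_{M,ℚ̄}`. -/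
def concJ (hT : IsConc M q T) (ι : K →+* Kb) : E →+* FN M := (toFN ι M).comp (concE hT)

theorem concJ_apply (hT : IsConc M q T) (ι : K →+* Kb) (y : E) :
    concJ hT ι y = toFN ι M (concE hT y) := rfl

theorem concJ_algebraMap (hT : IsConc M q T) (ι : K →+* Kb) (c : K) :
    concJ hT ι (algebraMap K E c) = algebraMap Kb (FN M) (ι c) := by
  rw [concJ_apply, concE_algebraMap]
  exact toFN_algebraMap ι M c

theorem concJ_x (hT : IsConc M q T) (ι : K →+* Kb) (hr : (lineOf q).r ∣ M) :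
    concJ hT ι T.x = xN M q hr := by
  apply Subtype.ext
  rw [coe_xN, concJ_apply, Fermat.Agent.S18.toFN_coe, coe_concE, hT.jE_x, Mod.coeffMap_xK]

theorem concJ_j (hT : IsConc M q T) (ι : K →+* Kb) {jj : E} (hj : T.jE jj = jqModC K) :
    concJ hT ι jj = Fermat.Agent.S24.jF M := by
  apply Subtype.ext
  rw [concJ_apply, Fermat.Agent.S18.toFN_coe, coe_concE, hj]
  show coeffMap ι (jqModC K) = Fermat.Agent.S24.Jser 1
  rw [coeffMap_jqModC, Fermat.Agent.S24.degree_Jser_one]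

theorem concJ_ratAt (hT : IsConc M q T) (ι : K →+* Kb) {P₀ : Place Kb (FN M)}
    (h : RatAt K (wP ι M) P₀) :
    RatAt K (fun (v : Place Kb (FN M)) (z : E) => v.ord (concJ hT ι z)) P₀ := by
  obtain ⟨h1, u, hu, hu1⟩ := h
  constructor
  · intro z hz hz0
    obtain ⟨c, hc⟩ := h1 (concE hT z) ((_root_.map_ne_zero _).2 hz) hz0
    refine ⟨c, ?_⟩
    rcases hc with hc | hc
    · left
      apply (concE hT).injective
      rw [hc, concE_algebraMap]
    · right
      show 0 < P₀.ord (concJ hT ι (z - algebraMap K E c))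
      rw [concJ_apply, map_sub, concE_algebraMap]
      exact hc
  · obtain ⟨y, rfl⟩ := concE_surjective hT u
    exact ⟨y, (_root_.map_ne_zero _).1 hu, hu1⟩

theorem conc_rel_fin (hT : IsConc M q T) {jj : E} (hj : T.jE jj = jqModC K) :
    ∃ (B : R[X]) (r : ℕ), jj * T.x ^ r = evR R K T.x B ∧ IsUnit B.leadingCoeff ∧
      r < B.natDegree := by
  rcases hT.rel hj with ⟨-, h⟩ | ⟨-, h⟩
  · refine ⟨(X + C 256) ^ 3, 2, ?_, ?_, ?_⟩
    · rw [h, map_pow, map_add, Fermat.Agent.S18.evR_X, Fermat.Agent.S18.evR_C, map_ofNat]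
    · rw [((monic_X_add_C (256 : R)).pow 3).leadingCoeff]; exact isUnit_one
    · rw [(monic_X_add_C (256 : R)).natDegree_pow, natDegree_X_add_C]; norm_num
  · refine ⟨(X + C 27) * (X + C 243) ^ 3, 3, ?_, ?_, ?_⟩
    · rw [h, map_mul, map_pow, map_add, map_add, Fermat.Agent.S18.evR_X, Fermat.Agent.S18.evR_C,
        Fermat.Agent.S18.evR_C, map_ofNat, map_ofNat]
    · rw [((monic_X_add_C (27 : R)).mul ((monic_X_add_C (243 : R)).pow 3)).leadingCoeff]
      exact isUnit_one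
    · rw [(monic_X_add_C (27 : R)).natDegree_mul ((monic_X_add_C (243 : R)).pow 3),
        (monic_X_add_C (243 : R)).natDegree_pow, natDegree_X_add_C, natDegree_X_add_C]
      norm_num

theorem conc_rel_inf (hT : IsConc M q T) {jj : E} (hj : T.jE jj = jqModC K) :
    ∃ (B : R[X]) (r : ℕ), jj * T.x⁻¹ ^ r = evR R K T.x⁻¹ B ∧ IsUnit B.leadingCoeff ∧
      r < B.natDegree := by
  have hx : T.x ≠ 0 := inst_x_ne_zero T
  rcases hT.rel hj with ⟨hq, h⟩ | ⟨hq, h⟩
  · have h2 : IsUnit ((2 : ℕ) : R) := conc_isUnit_natCast T (by rw [hq]; decide)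
    have h256 : IsUnit (256 : R) := by
      have e : (256 : R) = ((2 : ℕ) : R) ^ 8 := by norm_num
      rw [e]; exact h2.pow 8
    refine ⟨(C 256 * X + C 1) ^ 3, 1, ?_, ?_, ?_⟩
    · rw [map_pow, map_add, map_mul, Fermat.Agent.S18.evR_X, Fermat.Agent.S18.evR_C, Fermat.Agent.S18.evR_C,
        map_ofNat, map_one]
      have : jj = (T.x + 256) ^ 3 / T.x ^ 2 := by
        rw [eq_div_iff (pow_ne_zero 2 hx), h]
      rw [this]
      field_simp
      ring
    · rw [leadingCoeff_pow, leadingCoeff_linear h256.ne_zero]; exact h256.pow 3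
    · rw [natDegree_pow, natDegree_linear h256.ne_zero]; norm_num
  · have h3 : IsUnit ((3 : ℕ) : R) := conc_isUnit_natCast T
      ((Nat.coprime_primes Nat.prime_three T.hq).2 (Ne.symm hq))
    have h27 : IsUnit (27 : R) := by
      have e : (27 : R) = ((3 : ℕ) : R) ^ 3 := by norm_num
      rw [e]; exact h3.pow 3
    have h243 : IsUnit (243 : R) := by
      have e : (243 : R) = ((3 : ℕ) : R) ^ 5 := by norm_num
      rw [e]; exact h3.pow 5
    refine ⟨(C 27 * X + C 1) * (C 243 * X + C 1) ^ 3, 1, ?_, ?_, ?_⟩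
    · rw [map_mul, map_pow, map_add, map_add, map_mul, map_mul, Fermat.Agent.S18.evR_X, Fermat.Agent.S18.evR_C,
        Fermat.Agent.S18.evR_C, Fermat.Agent.S18.evR_C, map_ofNat, map_ofNat, map_one]
      have : jj = (T.x + 27) * (T.x + 243) ^ 3 / T.x ^ 3 := by
        rw [eq_div_iff (pow_ne_zero 3 hx), h]
      rw [this]
      field_simp
      ring
    · rw [leadingCoeff_mul, leadingCoeff_pow, leadingCoeff_linear h27.ne_zero,
        leadingCoeff_linear h243.ne_zero]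
      exact h27.mul (h243.pow 3)
    · have e1 : (C 27 * X + C 1 : R[X]) ≠ 0 := fun h0 => by
        have := natDegree_linear (b := (1 : R)) h27.ne_zero
        rw [h0, natDegree_zero] at this
        omega
      have e2 : (C 243 * X + C 1 : R[X]) ≠ 0 := fun h0 => by
        have := natDegree_linear (b := (1 : R)) h243.ne_zero
        rw [h0, natDegree_zero] at this
        omega
      rw [natDegree_mul e1 (pow_ne_zero 3 e2), natDegree_pow, natDegree_linear h27.ne_zero,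
        natDegree_linear h243.ne_zero]
      norm_num

end conc

theorem midHyp_conc {K : Type} [Field K] [CharZero K] (ι : K →+* Kb) (A : ValuationSubring Kb)
    {L E : Type} [Field L] [Algebra Kb L] [Field E] [Algebra K E] {ϖ : ↥(A.comap ι)}
    (hϖ : ¬ IsUnit ϖ) (j : E →+* L)
    (hj : ∀ c : K, j (algebraMap K E c) = algebraMap Kb L (ι c)) : MidHyp ϖ A ι j where
  hj := hj
  R_mem := fun r => r.2
  unif := by
    rw [ss_mem_nonunits_iff]
    by_contra hcon
    push Not at hcon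
    obtain ⟨h0, h1⟩ := hcon
    apply hϖ
    have h0' : (ϖ : K) ≠ 0 := fun h => h0 (by
      show ι (ϖ : K) = 0
      rw [h, map_zero])
    have h2 : (ϖ : K)⁻¹ ∈ A.comap ι := by
      show ι (ϖ : K)⁻¹ ∈ A
      rw [map_inv₀]
      exact h1
    refine IsUnit.of_mul_eq_one ⟨(ϖ : K)⁻¹, h2⟩ (Subtype.ext ?_)
    show (ϖ : K) * (ϖ : K)⁻¹ = 1
    exact mul_inv_cancel₀ h0'
  K_mem := fun a ha => ⟨⟨a, ha⟩, rfl⟩

theorem keyM_aux (M ℓ : ℕ) [NeZero M] (hℓ : ℓ.Prime) (hℓM : ¬ ℓ ∣ M) (hr : (lineOf ℓ).r ∣ M)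
    (A : ValuationSubring Kb) (hA : A.LiesOverPrime ℓ) (T : Finset (Option Kb))
    (P₀ : Place Kb (FN M)) (y : FN M) (hy : y = xN M ℓ hr ∨ y = (xN M ℓ hr)⁻¹)
    (hyP : y ∈ Wc (hFF M) A P₀) :
    ∃ u : FN M, u ≠ 0 ∧ P₀.ord u = 1 ∧
      ∀ P : Place Kb (FN M), P ≠ P₀ → P.ord u ≠ 0 → Far M A T P := by
  classical
  have : NeZero ℓ := ⟨hℓ.ne_zero⟩
  have hytr : Transcendental Kb y := by
    rcases hy with rfl | rfl
    · exact transcendental_xN M ℓ hr
    · intro h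
      exact transcendental_xN M ℓ hr (by simpa using h.inv)
  obtain ⟨f, hfint, hf1, hfW⟩ := exists_unif_sep (hFF M) hytr P₀
    (ord_nonneg_of_mem_Wc (hFF M) A P₀ hyP)
  have hf0 : f ≠ 0 := by
    rintro rfl
    rw [Place.ord_zero] at hf1
    omega
  obtain ⟨p, hp, hpq⟩ : ∃ p : ℕ, p.Prime ∧ p ≠ ℓ := by
    by_cases h : ℓ = 2
    · exact ⟨3, Nat.prime_three, by rw [h]; decide⟩
    · exact ⟨2, Nat.prime_two, Ne.symm h⟩
  have : NeZero p := ⟨hp.ne_zero⟩
  obtain ⟨ζ₀, hζ₀⟩ := HasEnoughRootsOfUnity.exists_primitiveRoot Kb p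
  obtain ⟨ζ₁, hζ₁⟩ := HasEnoughRootsOfUnity.exists_primitiveRoot Kb M
  let S : Finset Kb := insert ζ₀ (insert ζ₁ (T.preimage some (Option.some_injective Kb).injOn))
  have h₁ : FiniteDimensional ℚ (IntermediateField.adjoin ℚ (S : Set Kb)) := by
    apply IntermediateField.finiteDimensional_adjoin
    intro x _
    have h1 : Algebra.IsAlgebraic ℚ Kb := AlgebraicClosure.isAlgebraic ℚ
    exact (Algebra.IsAlgebraic.isAlgebraic x).isIntegral
  obtain ⟨K, _, _, _, ι, hι, f₀', hf₀', hratAll⟩ :=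
    exists_pack M (IntermediateField.adjoin ℚ (S : Set Kb)) h₁ f hf0
  have hS : ∀ c ∈ S, ∃ c' : K, ι c' = c := fun c hc =>
    hι c (IntermediateField.subset_adjoin ℚ _ (Finset.mem_coe.2 hc))
  obtain ⟨ζ, hζ⟩ := hS ζ₀ (Finset.mem_insert_self _ _)
  obtain ⟨ζM, hζM⟩ := hS ζ₁ (Finset.mem_insert_of_mem (Finset.mem_insert_self _ _))
  have hTK : ∀ b : Kb, some b ∈ T → ∃ c : K, ι c = b := fun b hb =>
    hS b (Finset.mem_insert_of_mem (Finset.mem_insert_of_mem (Finset.mem_preimage.2 hb)))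
  have : IsDiscreteValuationRing ↥(A.comap ι) := Fermat.Agent.S18.isDVR_comap ι A hℓ hA
  obtain ⟨ϖ, hϖ⟩ := IsDiscreteValuationRing.exists_irreducible ↥(A.comap ι)
  obtain ⟨E, _, _, _, _, TT, hT, hc1, hc2⟩ :=
    V2.exists_two' M ℓ p hℓ hℓM hr A hA hp hpq K ι ζ
      (IsPrimitiveRoot.of_map_of_injective (f := ι) (hζ ▸ hζ₀) ι.injective) ζM
      (IsPrimitiveRoot.of_map_of_injective (f := ι) (hζM ▸ hζ₁) ι.injective) hϖ
  obtain ⟨jj, hj⟩ := hT.exists_j
  have H : MidHyp ϖ A ι (concJ hT ι) :=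
    midHyp_conc ι A hϖ.not_isUnit (concJ hT ι) (concJ_algebraMap hT ι)
  obtain ⟨f₀, hf₀⟩ := concE_surjective hT f₀'
  have hjf : concJ hT ι f₀ = f := by rw [concJ_apply, hf₀, hf₀']
  have hrat := concJ_ratAt hT ι (hratAll P₀ (by rw [hf1]; norm_num))
  obtain ⟨t, h1, hjt, B, r, hrel, hB, hdeg⟩ : ∃ t : E, Chart1 K ϖ t TT.VE ∧ concJ hT ι t = y ∧
      ∃ (B : (↥(A.comap ι))[X]) (r : ℕ), jj * t ^ r = evR ↥(A.comap ι) K t B ∧
        IsUnit B.leadingCoeff ∧ r < B.natDegree := by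
    rcases hy with rfl | rfl
    · exact ⟨TT.x, hc1, concJ_x hT ι hr, conc_rel_fin hT hj⟩
    · exact ⟨TT.x⁻¹, hc2, by rw [map_inv₀, concJ_x hT ι hr], conc_rel_inf hT hj⟩
  refine key_chart M A T H hϖ h1 hTK (concJ_j hT ι hj) hrel hB hdeg P₀ (hjt ▸ hyP) hrat f₀ ?_ ?_ ?_
  · rw [hjt, hjf]; exact hfint
  · rw [hjf]; exact hf1
  · rw [hjt, hjf]; exact hfW

theorem keyM (M ℓ : ℕ) [NeZero M] (hℓ : ℓ.Prime) (hℓM : ¬ ℓ ∣ M) (hr : (lineOf ℓ).r ∣ M)
    (A : ValuationSubring Kb) (hA : A.LiesOverPrime ℓ) (T : Finset (Option Kb)) :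
    KeyStatement M A T := by
  intro P₀
  rcases (Wc (hFF M) A P₀).mem_or_inv_mem (xN M ℓ hr) with h | h
  · exact keyM_aux M ℓ hℓ hℓM hr A hA T P₀ _ (Or.inl rfl) h
  · exact keyM_aux M ℓ hℓ hℓM hr A hA T P₀ _ (Or.inr rfl) h

end Fermat.Agent.S19.Move
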