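import Fermat.Agent.S19.Move.Abs
import Fermat.Agent.S19.Move.Comp
import Fermat.Agent.NV.Canon

set_option autoImplicit false
set_option linter.unusedSectionVars false

/-!
# S19 / Move / Mid : the moving lemma for `F / K` inside `L / Ω`   (leaf MOVE-H)

`L / Ω` a function field over an algebraically closed field, `𝒜` a valuation ring of `Ω`, `j : F →+* L` over `ιK : K →+* Ω`, `R = 𝒜 ∩ K`.

SKETCH.
* `moveFam_mid`: `fam` as in `S34.valFam_wP` (`S34/BR/Fam.lean`); `le`, `pos`: `ord_nonneg_of_mem_Wc`, `mem_Wc_nonunits_of_ord_pos` (+ `ValuationSubring.mem_comap`; nonunits of a comap: `ss_mem_nonunits_iff`, `map_inv₀`);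
  `R_mem`, `unif`, `K_mem`: `rE_apply`, `H.hj`, `algebraMap_mem_Wc(_nonunits)`.
* `move_mid`: apply `move_abs` with `i₀ = P₀`.  `z₁ := rE ϖ ^ k * f₀ ∈ C` (`S34.exists_pow_mul_mem_CInt hϖ hf₀`), `w P z₁ = w P f₀` (`ValFam.map_mul`, `map_pow`, `map_rE`).  `hunif := z₁`.
  `hsep`: let `P ≠ P₀`, `j t ∈ Wc P`.  `hrat.1 t`: `a : K` with `0 < P₀.ord (j (t - a))` (`t ≠ a`: transcendental), so `valAt P₀ (j t) = ιK a` (`DIV.valAt_eq_of_ord_pos`), `a = algebraMap r₀` (`K_mem`).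
    If `valAt P (j t) = valAt P₀ (j t)`: `z₁`.  Otherwise `z := t - rE r₀ ∈ C`: `valAt P (j z) ≠ 0`, `DIV.ord_eq_zero_of_valAt_ne_zero`.
-/

noncomputable section

namespace Fermat.Agent.S19.Move

open Polynomial IntermediateField AlgebraicCurve Fermat.Agent.S18 Fermat.Agent.S34 Fermat.Agent.S24
  Fermat.Agent.DIV

/-- compatibility of `(R, K, F)` with `(𝒜, Ω, L)`. -/
structure MidHyp {R K F Ω L : Type} [CommRing R] [Field K] [Algebra R K] [Field F] [Algebra K F]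
    [Field Ω] [Field L] [Algebra Ω L] (ϖ : R) (𝒜 : ValuationSubring Ω) (ιK : K →+* Ω)
    (j : F →+* L) : Prop where
  hj : ∀ c : K, j (algebraMap K F c) = algebraMap Ω L (ιK c)
  R_mem : ∀ r : R, ιK (algebraMap R K r) ∈ 𝒜
  unif : ιK (algebraMap R K ϖ) ∈ 𝒜.nonunits
  K_mem : ∀ a : K, ιK a ∈ 𝒜 → ∃ r : R, algebraMap R K r = a

variable {R K F : Type} [CommRing R] [IsDomain R] [IsDiscreteValuationRing R] [Field K] [CharZero K]
  [Algebra R K] [IsFractionRing R K] [Field F] [Algebra K F] {ϖ : R}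
  {Ω L : Type} [Field Ω] [Field L] [Algebra Ω L] [IsAlgClosed Ω] [CharZero Ω] (hL : IsFF1 Ω L)
  {𝒜 : ValuationSubring Ω} {ιK : K →+* Ω} {j : F →+* L}

/-- the nonunits of a comap. -/
theorem mem_comap_nonunits {F' L' : Type} [Field F'] [Field L'] (φ : F' →+* L')
    (O : ValuationSubring L') (z : F') : z ∈ (O.comap φ).nonunits ↔ φ z ∈ O.nonunits := by
  rw [ss_mem_nonunits_iff, ss_mem_nonunits_iff, ValuationSubring.mem_comap, map_inv₀,
    map_eq_zero]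

theorem moveFam_mid (H : MidHyp ϖ 𝒜 ιK j) :
    MoveFam R K ϖ (fun (v : Place Ω L) (z : F) => v.ord (j z))
      (fun v : Place Ω L => (Wc hL 𝒜 v).comap j) := by
  have hne : ∀ z : F, z ≠ 0 → j z ≠ 0 := fun z hz => (map_ne_zero j).2 hz
  refine ⟨⟨?_, ?_, ?_, ?_⟩, ?_, ?_, ?_, ?_, ?_⟩
  · intro v a b ha hb
    show v.ord (j (a * b)) = v.ord (j a) + v.ord (j b)
    rw [map_mul, Place.ord_mul v (hne a ha) (hne b hb)]
  · intro v a b _ _ hab
    show min (v.ord (j a)) (v.ord (j b)) ≤ v.ord (j (a + b))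
    rw [map_add]
    refine min_le_ord_add v ?_
    rw [← map_add]
    exact hne _ hab
  · intro v c _
    show v.ord (j (algebraMap K F c)) = 0
    rw [H.hj, ord_algebraMap]
  · intro z hz
    have h1 := Fermat.Agent.NV.Canon.finite_ord_neg hL (j z)
    have h2 := Fermat.Agent.NV.Canon.finite_ord_neg hL (j z)⁻¹
    refine (h1.union h2).subset ?_
    intro v hv
    rw [Set.mem_ofPred_eq] at hv
    rw [Set.mem_union, Set.mem_ofPred_eq, Set.mem_ofPred_eq, Place.ord_inv]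
    omega
  · intro v z hz _
    exact ord_nonneg_of_mem_Wc hL 𝒜 v (ValuationSubring.mem_comap.1 hz)
  · intro v z _ hz
    rw [mem_comap_nonunits]
    exact mem_Wc_nonunits_of_ord_pos hL 𝒜 v hz
  · intro v r
    rw [ValuationSubring.mem_comap, rE_apply, H.hj, algebraMap_mem_Wc]
    exact H.R_mem r
  · intro v
    rw [mem_comap_nonunits, rE_apply, H.hj, algebraMap_mem_Wc_nonunits]
    exact H.unif
  · intro v a ha
    rw [ValuationSubring.mem_comap, H.hj, algebraMap_mem_Wc] at ha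
    exact H.K_mem a ha

theorem move_mid (H : MidHyp ϖ 𝒜 ιK j) (hϖ : Irreducible ϖ) {t : F} {V : ValuationSubring F}
    (h1 : Chart1 K ϖ t V) (P₀ : Place Ω L) (ht : j t ∈ Wc hL 𝒜 P₀)
    (hrat : RatAt K (fun (v : Place Ω L) (z : F) => v.ord (j z)) P₀)
    (f₀ : F) (hf₀ : IsIntegral (Algebra.adjoin K {t}) f₀) (hf1 : P₀.ord (j f₀) = 1)
    (hfW : ∀ P : Place Ω L, P ≠ P₀ → 0 ≤ P.ord (j t) → valAt hL P (j t) = valAt hL P₀ (j t) →
      P.ord (j f₀) = 0)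
    (Θ : R[X]) (hΘ : IsUnit Θ.leadingCoeff) :
    ∃ u : L, u ≠ 0 ∧ P₀.ord u = 1 ∧ ∀ P : Place Ω L, P ≠ P₀ → P.ord u ≠ 0 →
      j t ∈ Wc hL 𝒜 P ∧ j (evR R K t Θ) ∉ (Wc hL 𝒜 P).nonunits := by
  have hM := moveFam_mid hL H
  have hf0 : f₀ ≠ 0 := by
    rintro rfl
    rw [map_zero, Place.ord_zero] at hf1
    exact zero_ne_one hf1
  have hϖ0 : rE R K F ϖ ≠ 0 := ss_rE_ne_zero hϖ
  obtain ⟨k, hk⟩ := exists_pow_mul_mem_CInt hϖ hf₀
  have hz0 : rE R K F ϖ ^ k * f₀ ≠ 0 := mul_ne_zero (pow_ne_zero _ hϖ0) hf0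
  have hz1 : ∀ P : Place Ω L, P.ord (j (rE R K F ϖ ^ k * f₀)) = P.ord (j f₀) := by
    intro P
    have e1 := hM.fam.map_mul P _ _ (pow_ne_zero k hϖ0) hf0
    have e2 := hM.fam.map_pow P hϖ0 k
    have e3 := hM.fam.map_rE P hϖ.ne_zero
    rw [e1, e2, e3, mul_zero, zero_add]
  have htc : ∀ a : K, t ≠ algebraMap K F a := fun a h0 =>
    h1.trans (h0 ▸ isAlgebraic_algebraMap a)
  have ht0 : t ≠ 0 := fun h0 => htc 0 (by rw [h0, map_zero])
  obtain ⟨a, ha⟩ := hrat.1 t ht0 (ord_nonneg_of_mem_Wc hL 𝒜 P₀ ht)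
  have ha : 0 < P₀.ord (j (t - algebraMap K F a)) := ha.resolve_left (htc a)
  have ha' : 0 < P₀.ord (j t - algebraMap Ω L (ιK a)) := by
    rwa [map_sub, H.hj] at ha
  have hval : valAt hL P₀ (j t) = ιK a := (valAt_eq_of_ord_pos hL P₀ ha').2
  obtain ⟨r₀, hr₀⟩ := H.K_mem a (hval ▸ ((mem_Wc hL 𝒜 P₀).1 ht).2)
  obtain ⟨u, hu0, hu1, hu⟩ := move_abs hϖ h1 hM P₀ (ValuationSubring.mem_comap.2 ht) hrat
    ⟨_, hk, hz0, by rw [hz1, hf1]⟩
    (by
      intro P hP htP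
      have htP' : j t ∈ Wc hL 𝒜 P := ValuationSubring.mem_comap.1 htP
      by_cases hv : valAt hL P (j t) = valAt hL P₀ (j t)
      · refine ⟨_, hk, hz0, ?_, ?_⟩
        · rw [hz1, hf1]
          exact one_pos
        · rw [hz1]
          exact hfW P hP (ord_nonneg_of_mem_Wc hL 𝒜 P htP') hv
      · refine ⟨t - rE R K F r₀, sub_mem (self_mem_CInt t) (rE_mem_CInt t r₀), ?_, ?_, ?_⟩
        · rw [rE_apply, hr₀]
          exact sub_ne_zero.2 (htc a)
        · rw [rE_apply, hr₀]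
          exact ha
        · rw [rE_apply, hr₀, map_sub, H.hj]
          apply ord_eq_zero_of_valAt_ne_zero hL P
          rw [valAt_sub hL P ((mem_Wc hL 𝒜 P).1 htP').1 (P.algebraMap_mem' _), valAt_algebraMap,
            ← hval]
          exact sub_ne_zero.2 hv)
    Θ hΘ
  refine ⟨j u, (map_ne_zero j).2 hu0, hu1, fun P hP hPu => ?_⟩
  obtain ⟨h2, h3⟩ := hu P hP hPu
  exact ⟨ValuationSubring.mem_comap.1 h2, fun h4 => h3 ((mem_comap_nonunits j _ _).2 h4)⟩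

end Fermat.Agent.S19.Move
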