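import Fermat.Agent.S34.Inst.Conc

set_option autoImplicit false
set_option linter.unusedSectionVars false

/-!
# S19 / Move / Rel : the `j`-relation in the two charts `x`, `x⁻¹`, with the degrees   (leaf MOVE-O)
-/

noncomputable section

namespace Fermat.Agent.S19.Move

open AlgebraicCurve ModularCurve Polynomial
open Fermat.Agent.S18 (lineOf toFN xK evR rE evR_X)
open Fermat.Agent.S18.V (FK)
open Fermat.Agent.S34 (conc_isUnit_natCast inst_x_ne_zero)
open Fermat.Agent.S34.V2 (Two IsConc)

section rel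

variable {R K : Type} [CommRing R] [IsDomain R] [IsDiscreteValuationRing R] [Field K] [CharZero K]
  [Algebra R K] [IsFractionRing R K]
  {M q : ℕ} [NeZero M] [NeZero q] {E : Type} [Field E] [Algebra K E]
  [Algebra E ↥(FK K (M * q))] [IsScalarTower K E ↥(FK K (M * q))]
  {T : Two R K q E ↥(FK K (M * q))}

theorem rel_monic (a : R) : (X + C a : R[X]).Monic ∧ (X + C a : R[X]).natDegree = 1 :=
  ⟨monic_X_add_C a, natDegree_X_add_C a⟩

theorem rel_lin {a : R} (ha : IsUnit a) :
    (1 + C a * X : R[X]).leadingCoeff = a ∧ (1 + C a * X : R[X]).natDegree = 1 := by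
  have e : (1 + C a * X : R[X]) = C a * X + C 1 := by rw [C_1, add_comm]
  rw [e]
  exact ⟨leadingCoeff_linear ha.ne_zero, natDegree_linear ha.ne_zero⟩

/-- the `j`-relation in the chart `x`, with the degrees. -/
theorem rel_fin' (hT : IsConc M q T) {jj : E} (hj : T.jE jj = jqModC K) :
    ∃ (B : R[X]) (r : ℕ), IsUnit B.leadingCoeff ∧ r < B.natDegree ∧
      jj * T.x ^ r = evR R K T.x B := by
  rcases hT.rel hj with ⟨hq, h⟩ | ⟨hq, h⟩
  · refine ⟨(X + C 256) ^ 3, 2, ?_, ?_, ?_⟩
    · rw [((rel_monic (256 : R)).1.pow 3).leadingCoeff]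
      exact isUnit_one
    · rw [(rel_monic (256 : R)).1.natDegree_pow, (rel_monic (256 : R)).2]
      norm_num
    · rw [h, map_pow, map_add, evR_X, map_ofNat C, map_ofNat]
  · refine ⟨(X + C 27) * (X + C 243) ^ 3, 3, ?_, ?_, ?_⟩
    · rw [((rel_monic (27 : R)).1.mul ((rel_monic (243 : R)).1.pow 3)).leadingCoeff]
      exact isUnit_one
    · rw [(rel_monic (27 : R)).1.natDegree_mul ((rel_monic (243 : R)).1.pow 3),
        (rel_monic (243 : R)).1.natDegree_pow, (rel_monic (27 : R)).2, (rel_monic (243 : R)).2]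
      norm_num
    · rw [h, map_mul, map_pow, map_add, map_add, evR_X, map_ofNat C, map_ofNat C, map_ofNat,
        map_ofNat]

/-- the `j`-relation in the chart `x⁻¹`, with the degrees. -/
theorem rel_inf' (hT : IsConc M q T) {jj : E} (hj : T.jE jj = jqModC K) :
    ∃ (B : R[X]) (r : ℕ), IsUnit B.leadingCoeff ∧ r < B.natDegree ∧
      jj * T.x⁻¹ ^ r = evR R K T.x⁻¹ B := by
  have hx : T.x ≠ 0 := inst_x_ne_zero T
  rcases hT.rel hj with ⟨hq, h⟩ | ⟨hq, h⟩
  · have h2 : IsUnit ((2 : ℕ) : R) := conc_isUnit_natCast T (by rw [hq]; decide)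
    have h256 : IsUnit (256 : R) := by
      have e : (256 : R) = ((2 : ℕ) : R) ^ 8 := by norm_num
      rw [e]
      exact h2.pow 8
    refine ⟨(1 + C 256 * X) ^ 3, 1, ?_, ?_, ?_⟩
    · rw [leadingCoeff_pow, (rel_lin h256).1]
      exact h256.pow 3
    · rw [natDegree_pow, (rel_lin h256).2]
      norm_num
    · rw [map_pow, map_add, map_mul, evR_X, map_ofNat C, map_ofNat, map_one]
      have : jj = (T.x + 256) ^ 3 / T.x ^ 2 := by
        rw [eq_div_iff (pow_ne_zero 2 hx), h]
      rw [this]
      field_simp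
  · have h3 : IsUnit ((3 : ℕ) : R) := conc_isUnit_natCast T
      ((Nat.coprime_primes Nat.prime_three T.hq).2 (Ne.symm hq))
    have h27 : IsUnit (27 : R) := by
      have e : (27 : R) = ((3 : ℕ) : R) ^ 3 := by norm_num
      rw [e]
      exact h3.pow 3
    have h243 : IsUnit (243 : R) := by
      have e : (243 : R) = ((3 : ℕ) : R) ^ 5 := by norm_num
      rw [e]
      exact h3.pow 5
    refine ⟨(1 + C 27 * X) * (1 + C 243 * X) ^ 3, 1, ?_, ?_, ?_⟩
    · rw [leadingCoeff_mul, leadingCoeff_pow, (rel_lin h27).1, (rel_lin h243).1]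
      exact h27.mul (h243.pow 3)
    · have n1 : (1 + C 27 * X : R[X]) ≠ 0 := fun h0 => by
        have := (rel_lin h27).2
        rw [h0, natDegree_zero] at this
        exact zero_ne_one this
      have n2 : (1 + C 243 * X : R[X]) ≠ 0 := fun h0 => by
        have := (rel_lin h243).2
        rw [h0, natDegree_zero] at this
        exact zero_ne_one this
      rw [natDegree_mul n1 (pow_ne_zero 3 n2), natDegree_pow, (rel_lin h27).2, (rel_lin h243).2]
      norm_num
    · rw [map_mul, map_pow, map_add, map_add, map_mul, map_mul, evR_X, map_ofNat C, map_ofNat C,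
        map_ofNat, map_ofNat, map_one]
      have : jj = (T.x + 27) * (T.x + 243) ^ 3 / T.x ^ 3 := by
        rw [eq_div_iff (pow_ne_zero 3 hx), h]
      rw [this]
      field_simp

end rel

end Fermat.Agent.S19.Move
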