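import Fermat.Agent.S19.Move.Defs

set_option autoImplicit false
set_option linter.unusedSectionVars false

/-!
# S19 / Move / Setup : the section and the closed point attached to a rational place   (leaf MOVE-A)

SKETCH.
* `C_le`: `S18.mem_of_isIntegralElem (W i) (evR R K t) ?_ hc`; `evR t p ∈ W i` by `Polynomial.induction_on'` (as in `S34.ValFam.nonneg_of_mem_CInt`), `hM.R_mem`, `ht`.
* `C_leO`: `c = 0` or `hM.le i c (C_le ..)`.   (`z ∈ valO i ↔ z = 0 ∨ 0 ≤ w i z` is `Iff.rfl`.)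
* `mem_valO_nonunits`: `z ∈ (valO i).nonunits ↔ z = 0 ∨ 0 < w i z` (`ss_mem_nonunits_iff`, `ValFam.map_inv`).
* `isSection`: `le`: `hM.pos`.  `rat`: `hrat.1 c`: `c = a` or `0 < w (c - a)`, `a : K`; `a = c - (c - a) ∈ W i0`, so `a = algebraMap r` by `hM.K_mem`.  `inj`: `ValFam.map_rE`.
* `isClosedPt`: `mem := hM.unif`.  `max`: `Ideal.isMaximal_iff`: if `c ∉ n`, `c = r + p` (`rat`), `r` is a unit of `R` (otherwise `ϖ ∣ r`, `lf_dvd_of_not_isUnit`, and `c ∈ n`), so `1 = r⁻¹ c - r⁻¹ p ∈ J`.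
* `smAt_of_chart1`: `S := X₁` of `Chart1.exists_locGen`; `z` with `d₀ z = y ∈ n`, `d y = X₁ a + ϖ b`: `z = ϖ (b / (d d₀)) + X₁ (a / (d d₀))` (`InLoc.inv_of_notMem`, `InLoc.of_mem`, `InLoc.mul`; copy the end of `S34.Side.smAt`).
* `lf_sm`: copy of the first branch of `S34.lf` (there `c₀ = 1`): gives `a` with `InLoc n a`, `z = h * a`; `InLoc`: `d * a = b ∈ C`.
-/

noncomputable section

namespace Fermat.Agent.S19.Move

open Polynomial IntermediateField Fermat.Agent.S18 Fermat.Agent.S34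

variable {R K F : Type} [CommRing R] [IsDomain R] [IsDiscreteValuationRing R] [Field K] [CharZero K]
  [Algebra R K] [IsFractionRing R K] [Field F] [Algebra K F] {ϖ : R} {I : Type} {w : I → F → ℤ}
  {W : I → ValuationSubring F}

theorem MoveFam.evR_mem (hM : MoveFam R K ϖ w W) {i : I} {t : F} (ht : t ∈ W i) (p : R[X]) :
    evR R K t p ∈ W i := by
  induction p using Polynomial.induction_on' with
  | add p q hp hq => rw [_root_.map_add]; exact add_mem hp hq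
  | monomial k a =>
    rw [← C_mul_X_pow_eq_monomial, _root_.map_mul, _root_.map_pow, evR_C, evR_X]
    exact mul_mem (hM.R_mem i a) (pow_mem ht k)

theorem MoveFam.C_le (hM : MoveFam R K ϖ w W) {i : I} {t : F} (ht : t ∈ W i) :
    ∀ c ∈ CInt R K t, c ∈ W i := fun _ hc =>
  mem_of_isIntegralElem (W i) (evR R K t) (hM.evR_mem ht) hc

theorem MoveFam.C_leO (hM : MoveFam R K ϖ w W) {i : I} {t : F} (ht : t ∈ W i) :
    ∀ c ∈ CInt R K t, c ∈ hM.fam.valO i := by
  intro c hc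
  by_cases hc0 : c = 0
  · exact Or.inl hc0
  · exact Or.inr (hM.le i c (hM.C_le ht c hc) hc0)

theorem MoveFam.mem_valO_nonunits (hM : MoveFam R K ϖ w W) {i : I} {z : F} :
    z ∈ (hM.fam.valO i).nonunits ↔ z = 0 ∨ 0 < w i z := by
  rw [ss_mem_nonunits_iff]
  by_cases hz : z = 0
  · simp [hz]
  · have h1 : z⁻¹ ∈ hM.fam.valO i ↔ (z⁻¹ = 0 ∨ 0 ≤ w i z⁻¹) := Iff.rfl
    rw [h1, hM.fam.map_inv i hz]
    simp only [hz, inv_eq_zero, false_or]
    omega

/-- a unit of `W i` has order `0`. -/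
theorem MoveFam.w_eq_zero (hM : MoveFam R K ϖ w W) {i : I} {z : F} (hz : z ∈ W i)
    (hz' : z ∉ (W i).nonunits) : w i z = 0 := by
  have hz0 : z ≠ 0 := by
    rintro rfl
    exact hz' (zero_mem_nonunits _)
  have h1 := hM.le i z hz hz0
  by_contra hne
  exact hz' (hM.pos i z hz0 (by omega))

theorem MoveFam.isSection (hM : MoveFam R K ϖ w W) {i₀ : I} {t : F} (ht : t ∈ W i₀)
    (hrat : RatAt K w i₀) :
    IsSection (cen (W i₀) (hM.C_le ht)) (cen (hM.fam.valO i₀) (hM.C_leO ht)) := by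
  refine ⟨?_, ?_, ?_⟩
  · intro c hc
    rw [mem_cen] at hc ⊢
    rcases hM.mem_valO_nonunits.1 hc with h | h
    · rw [h]; exact zero_mem_nonunits _
    · by_cases hc0 : (c : F) = 0
      · rw [hc0]; exact zero_mem_nonunits _
      · exact hM.pos i₀ _ hc0 h
  · intro c
    by_cases hc0 : (c : F) = 0
    · refine ⟨0, ?_⟩
      rw [mem_cen]
      show (c : F) - rE R K F 0 ∈ _
      rw [hc0, _root_.map_zero, sub_zero]
      exact zero_mem_nonunits _
    have hcW : (c : F) ∈ W i₀ := hM.C_le ht c c.2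
    obtain ⟨a, ha⟩ := hrat.1 c hc0 (hM.le i₀ c hcW hc0)
    have haW : algebraMap K F a ∈ W i₀ := by
      rcases ha with h | h
      · rw [← h]; exact hcW
      · by_cases h0 : (c : F) - algebraMap K F a = 0
        · rw [← sub_eq_zero.1 h0]; exact hcW
        · have h1 : (c : F) - algebraMap K F a ∈ W i₀ :=
            ValuationSubring.nonunits_subset (hM.pos i₀ _ h0 h)
          have h2 := (W i₀).sub_mem hcW h1
          rwa [sub_sub_cancel] at h2
    obtain ⟨r, hr⟩ := hM.K_mem i₀ a haW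
    refine ⟨r, ?_⟩
    rw [mem_cen]
    show (c : F) - rE R K F r ∈ _
    rw [rE_apply, hr, hM.mem_valO_nonunits]
    rcases ha with h | h
    · left; rw [h, sub_self]
    · exact Or.inr h
  · intro r hr
    rw [mem_cen] at hr
    by_contra hr0
    have h1 : rE R K F r = 0 ∨ 0 < w i₀ (rE R K F r) := hM.mem_valO_nonunits.1 hr
    rcases h1 with h | h
    · rw [rE_apply] at h
      have h2 : algebraMap R K r = 0 := by simpa using h
      exact hr0 (by simpa using h2)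
    · rw [hM.fam.map_rE i₀ hr0] at h
      exact lt_irrefl _ h

theorem MoveFam.isClosedPt (hM : MoveFam R K ϖ w W) (hϖ : Irreducible ϖ) {i₀ : I} {t : F}
    (ht : t ∈ W i₀) (hrat : RatAt K w i₀) : IsClosedPt ϖ (cen (W i₀) (hM.C_le ht)) := by
  have hsec := hM.isSection ht hrat
  have hmem : unifC t ϖ ∈ cen (W i₀) (hM.C_le (R := R) (K := K) ht) := by
    rw [mem_cen]; exact hM.unif i₀
  refine ⟨?_, hmem⟩
  have hprime := cen_isPrime (R := R) (K := K) (W i₀) (hM.C_le ht)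
  rw [Ideal.isMaximal_iff]
  refine ⟨fun h => hprime.ne_top ((Ideal.eq_top_iff_one _).2 h), ?_⟩
  intro J c hle hc hcJ
  obtain ⟨r, hr⟩ := hsec.rat c
  have hru : IsUnit r := by
    by_contra hnu
    obtain ⟨s, rfl⟩ := lf_dvd_of_not_isUnit hϖ hnu
    apply hc
    have h1 : (⟨rE R K F (ϖ * s), rE_mem_CInt t (ϖ * s)⟩ : CInt R K t) =
        unifC t ϖ * ⟨rE R K F s, rE_mem_CInt t s⟩ := by
      apply Subtype.ext
      show rE R K F (ϖ * s) = rE R K F ϖ * rE R K F s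
      rw [_root_.map_mul]
    have h2 : (⟨rE R K F (ϖ * s), rE_mem_CInt t (ϖ * s)⟩ : CInt R K t) ∈
        cen (W i₀) (hM.C_le (R := R) (K := K) ht) := by
      rw [h1]; exact Ideal.mul_mem_right _ _ hmem
    have h3 := Ideal.add_mem _ (hsec.le hr) h2
    rwa [sub_add_cancel] at h3
  obtain ⟨r', hr'⟩ := hru.exists_left_inv
  have h4 : (⟨rE R K F r, rE_mem_CInt t r⟩ : CInt R K t) ∈ J := by
    have h5 := J.sub_mem hcJ (hle (hsec.le hr))
    rwa [sub_sub_cancel] at h5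
  have h6 : (1 : CInt R K t) = ⟨rE R K F r', rE_mem_CInt t r'⟩ * ⟨rE R K F r, rE_mem_CInt t r⟩ := by
    apply Subtype.ext
    show (1 : F) = rE R K F r' * rE R K F r
    rw [← _root_.map_mul, hr', _root_.map_one]
  rw [h6]
  exact J.mul_mem_left _ h4

theorem smAt_of_chart1 (hϖ : Irreducible ϖ) {t : F} {V : ValuationSubring F}
    (h1 : Chart1 K ϖ t V) {n : Ideal (CInt R K t)} (hn : IsClosedPt ϖ n) : SmAt ϖ n := by
  haveI : n.IsPrime := hn.max.isPrime
  obtain ⟨X₁, hX, hgen⟩ := h1.exists_locGen hϖ n hn.mem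
  refine ⟨X₁, InMax.of_mem hX, fun z hz => ?_⟩
  obtain ⟨d, hd, y, hy, e⟩ := hz
  obtain ⟨d', hd', a, b, e'⟩ := hgen y hy
  have hd0 : (d : F) ≠ 0 := lf_ne_zero hd
  have hd0' : (d' : F) ≠ 0 := lf_ne_zero hd'
  have e'' : (d' : F) * (y : F) = (X₁ : F) * a + rE R K F ϖ * b := by
    have := congrArg (fun y : CInt R K t => (y : F)) e'
    simpa [unifC] using this
  refine ⟨(d : F)⁻¹ * (d' : F)⁻¹ * b, (d : F)⁻¹ * (d' : F)⁻¹ * a,
    ((InLoc.inv_of_notMem hd).mul (InLoc.inv_of_notMem hd')).mul (InLoc.of_mem n b.2),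
    ((InLoc.inv_of_notMem hd).mul (InLoc.inv_of_notMem hd')).mul (InLoc.of_mem n a.2), ?_⟩
  have : z = (d : F)⁻¹ * (d' : F)⁻¹ * ((d' : F) * ((d : F) * z)) := by
    field_simp
  rw [this, e, e'']
  ring

theorem lf_sm (hϖ : Irreducible ϖ) {t : F} (ht : Transcendental K t)
    (hfin : FiniteDimensional K⟮t⟯ F) {n : Ideal (CInt R K t)} (hn : IsClosedPt ϖ n)
    (hS : SmAt ϖ n) {𝔭 : Ideal (CInt R K t)} (h𝔭 : IsSection n 𝔭) :
    ∃ h : CInt R K t, h ∈ 𝔭 ∧ ∀ z ∈ 𝔭, ∃ d : CInt R K t, d ∉ n ∧ ∃ b : CInt R K t,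
      d * z = h * b := by
  haveI : n.IsPrime := hn.max.isPrime
  have hrE : ∀ r : R, InLoc n (rE R K F r) := fun r => InLoc.of_mem n (rE_mem_CInt t r)
  obtain ⟨S, hSmax, hgen⟩ := hS
  obtain ⟨s₁, hs⟩ := lf_shift hϖ hn h𝔭 hSmax
  have hnak := lf_nak hϖ ht hfin hn h𝔭
    (Submodule.span (Oloc n) {S - rE R K F (ϖ * s₁)}) (by
      intro z hz
      obtain ⟨a, b, ha, hb, rfl⟩ := hgen z (hz.inMax h𝔭.le)
      refine ⟨a + rE R K F s₁ * b, b * (S - rE R K F (ϖ * s₁)), ha.add ((hrE s₁).mul hb),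
        Submodule.smul_mem _ (⟨b, hb⟩ : Oloc n) (Submodule.mem_span_singleton_self _),
        LfInP.mul_left hb hs, ?_⟩
      rw [_root_.map_mul]
      ring)
  obtain ⟨e, he, p, hp, hep⟩ := hs
  refine ⟨p, hp, fun z hz => ?_⟩
  obtain ⟨a, ha⟩ := Submodule.mem_span_singleton.mp (hnak z (LfInP.of_mem hz))
  have ha' : (a : F) * (S - rE R K F (ϖ * s₁)) = z := ha
  obtain ⟨d, hd, hda⟩ := a.2
  refine ⟨d * e, loc_mul_notMem hd he, ⟨_, hda⟩, ?_⟩
  apply Subtype.ext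
  show (d : F) * (e : F) * (z : F) = (p : F) * ((d : F) * (a : F))
  rw [← hep, ← ha']
  ring

end Fermat.Agent.S19.Move
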